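import Fermat.Agent.CFT.Global.HNT.LICore
import Fermat.Agent.CFT.Global.HasseNorm.Inert
import Fermat.Agent.Lib.WeakApprox

/-!
# Local first inequality at ramified nonsplit places of number fields (completion-free)

`L/K` Galois of prime degree `p`, `v` a finite place of `K` with a single place `w` of `L` above
it, ramified.  Then some `b ∈ Kˣ` is not an approximate norm at `v`
(`Fermat.Agent.CFT.Global.HasseNorm.ApproxNorm`).  Together with the inert case
(`exists_not_approxNorm_of_nonsplit_unram`) this gives the statement at every nonsplit place, and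
the hypothesis `LocalFirstIneqRam K L` of the Hasse norm theorem.

The proof feeds the abstract core `IsRam.exists_not_norm` with `w.valuation L`, the Galois
group, a uniformiser of `w` and representatives of the residue field of `v`.
-/

set_option autoImplicit false
set_option linter.unusedSectionVars false

open scoped NumberField WithZero Pointwise
open IsDedekindDomain

namespace Fermat.Agent.CFT.Global.HNT.LocalIndex

open Fermat.Agent.CFT.Global.HasseNorm

variable (K L : Type*) [Field K] [NumberField K] [Field L] [NumberField L] [Algebra K L]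

/-- `e * f = p` at a nonsplit place of a Galois extension of degree `p`. -/
theorem ramificationIdx_mul_inertiaDeg_of_nonsplit [IsGalois K L] {p : ℕ}
    (hdeg : Module.finrank K L = p) (w : HeightOneSpectrum (𝓞 L))
    (hv : Nonsplit K L (w.under (𝓞 K))) :
    w.asIdeal.ramificationIdx (𝓞 K) * w.asIdeal.inertiaDeg (𝓞 K) = p := by
  set v := w.under (𝓞 K) with hvdef
  have : w.asIdeal.LiesOver v.asIdeal := ⟨rfl⟩
  have hcard := Ideal.card_stabilizer_eq (G := L ≃ₐ[K] L) v.asIdeal w.asIdeal
  rw [Ideal.ramificationIdxIn_eq_ramificationIdx v.asIdeal w.asIdeal (L ≃ₐ[K] L),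
    Ideal.inertiaDegIn_eq_inertiaDeg v.asIdeal w.asIdeal (L ≃ₐ[K] L)] at hcard
  rw [← hcard]
  have htop : MulAction.stabilizer (L ≃ₐ[K] L) w.asIdeal = ⊤ := by
    rw [eq_top_iff]
    intro τ _
    rw [MulAction.mem_stabilizer_iff]
    have : galSmul K L τ w = w := hv _ _ (under_galSmul K L τ w) rfl
    exact congrArg HeightOneSpectrum.asIdeal this
  rw [htop, Nat.card_congr (Subgroup.topEquiv (G := L ≃ₐ[K] L)).toEquiv,
    IsGalois.card_aut_eq_finrank, hdeg]

/-- Elements of `L` that are integral at `w` are congruent mod `w` to an element of `𝓞 L`. -/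
theorem exists_int_valuation_sub_lt_one (w : HeightOneSpectrum (𝓞 L)) (y : L)
    (hy : w.valuation L y ≤ 1) : ∃ c : 𝓞 L, w.valuation L (y - (c : L)) < 1 := by
  classical
  obtain ⟨c', hc1, hc2⟩ := Fermat.Agent.Lib.WeakApprox.exists_forall_valuation_sub_le
    (R := 𝓞 L) (K := L) {w} (fun _ => y) (fun _ => 1)
  have hw := hc1 w (Finset.mem_singleton_self w)
  have hlt : w.valuation L (c' - y) < 1 := by
    refine lt_of_le_of_lt hw ?_
    rw [← WithZero.exp_zero, WithZero.exp_lt_exp]
    norm_num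
  have hall : ∀ u : HeightOneSpectrum (𝓞 L), u.valuation L c' ≤ 1 := by
    intro u
    by_cases hu : u = w
    · subst hu
      have : c' = (c' - y) + y := by ring
      rw [this]
      exact (Valuation.map_add _ _ _).trans (max_le hlt.le hy)
    · exact hc2 u (by simpa using hu)
  obtain ⟨c, hc⟩ := HeightOneSpectrum.mem_integers_of_valuation_le_one L c' hall
  refine ⟨c, ?_⟩
  have : (c : L) = c' := hc
  rw [this, ← Valuation.map_neg, neg_sub]
  exact hlt


/-- The residue field extension at a place with inertia degree one is trivial. -/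
theorem exists_algebraMap_sub_mem_of_inertiaDeg_eq_one (w : HeightOneSpectrum (𝓞 L))
    (hf : w.asIdeal.inertiaDeg (𝓞 K) = 1) (c : 𝓞 L) :
    ∃ a : 𝓞 K, c - algebraMap (𝓞 K) (𝓞 L) a ∈ w.asIdeal := by
  set v := w.under (𝓞 K) with hvdef
  have hlies : w.asIdeal.LiesOver v.asIdeal := ⟨rfl⟩
  have hvmax : v.asIdeal.IsMaximal := v.isMaximal
  have hwmax : w.asIdeal.IsMaximal := w.isMaximal
  let _ : Field (𝓞 K ⧸ v.asIdeal) := Ideal.Quotient.field v.asIdeal
  let _ : Field (𝓞 L ⧸ w.asIdeal) := Ideal.Quotient.field w.asIdeal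
  have h1 : Module.finrank (𝓞 K ⧸ v.asIdeal) (𝓞 L ⧸ w.asIdeal) = 1 := by
    rw [← Ideal.inertiaDeg_eq_of_isMaximal v.asIdeal w.asIdeal]
    exact hf
  have h2 := (Algebra.finrank_eq_one_iff_bijective_algebraMap).1 h1
  obtain ⟨q, hq⟩ := h2.2 (Ideal.Quotient.mk w.asIdeal c)
  obtain ⟨a, rfl⟩ := Ideal.Quotient.mk_surjective q
  refine ⟨a, ?_⟩
  rw [← Ideal.Quotient.eq]
  exact hq.symm

/-- The situation `IsRam` at a ramified nonsplit place. -/
theorem isRam_of_nonsplit_ram [IsGalois K L] {p : ℕ} (hp : p.Prime)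
    (hdeg : Module.finrank K L = p) (w : HeightOneSpectrum (𝓞 L))
    (hv : Nonsplit K L (w.under (𝓞 K))) (hram : ¬ UnramAt K L (w.under (𝓞 K))) :
    (∀ x : K, w.valuation L (algebraMap K L x) = (w.under (𝓞 K)).valuation K x ^ p) ∧
    ∃ (σ : L ≃ₐ[K] L) (ϖ : L) (R : Finset L), IsRam (w.valuation L) p σ ϖ R := by
  classical
  set v := w.under (𝓞 K) with hvdef
  have hlies : w.asIdeal.LiesOver v.asIdeal := ⟨rfl⟩
  have hef := ramificationIdx_mul_inertiaDeg_of_nonsplit K L hdeg w hv
  have he' : v.asIdeal.ramificationIdx' w.asIdeal = w.asIdeal.ramificationIdx (𝓞 K) :=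
    Ideal.ramificationIdx'_eq_ramificationIdx v.asIdeal w.asIdeal v.ne_bot
  have hval0 : ∀ x : K, w.valuation L (algebraMap K L x) =
      v.valuation K x ^ (w.asIdeal.ramificationIdx (𝓞 K)) := by
    intro x
    rw [← he']
    exact (HeightOneSpectrum.valuation_liesOver L v w x).symm
  have he1 : w.asIdeal.ramificationIdx (𝓞 K) ≠ 1 := by
    intro h1
    apply hram
    intro w' hw' x
    have : w' = w := hv _ _ hw' rfl
    rw [this, hval0, h1, pow_one]
  have he : w.asIdeal.ramificationIdx (𝓞 K) = p :=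
    ((Nat.dvd_prime hp).1 ⟨_, hef.symm⟩).resolve_left he1
  have hf : w.asIdeal.inertiaDeg (𝓞 K) = 1 := by
    rw [he] at hef
    exact Nat.eq_of_mul_eq_mul_left hp.pos (by rw [hef, mul_one])
  have hval : ∀ x : K, w.valuation L (algebraMap K L x) = v.valuation K x ^ p := by
    intro x; rw [hval0, he]
  refine ⟨hval, ?_⟩
  -- the Galois group
  have hcard : Nat.card (L ≃ₐ[K] L) = p := by rw [IsGalois.card_aut_eq_finrank, hdeg]
  have hnt : Nontrivial (L ≃ₐ[K] L) := by
    rw [← Finite.one_lt_card_iff_nontrivial, hcard]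
    exact hp.one_lt
  obtain ⟨σ, hσ⟩ := exists_ne (1 : L ≃ₐ[K] L)
  obtain ⟨ϖ, hϖ⟩ := w.valuation_exists_uniformizer L
  -- residue representatives
  have hfin : Finite (𝓞 K ⧸ v.asIdeal) := Ideal.finiteQuotientOfFreeOfNeBot v.asIdeal v.ne_bot
  let _ := Fintype.ofFinite (𝓞 K ⧸ v.asIdeal)
  let rep : (𝓞 K ⧸ v.asIdeal) → L := fun q => algebraMap K L ((Quotient.out q : 𝓞 K) : K)
  have hcoe : ∀ a : 𝓞 K, algebraMap K L (a : K) = ((algebraMap (𝓞 K) (𝓞 L) a : 𝓞 L) : L) :=
    fun a => rfl
  have hinvar : ∀ (g : L ≃ₐ[K] L) (x : L), w.valuation L (g • x) = w.valuation L x := by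
    intro g x
    have h1 := valuation_galSmul K L g w x
    have h2 : galSmul K L g w = w := hv _ _ (under_galSmul K L g w) rfl
    rw [h2] at h1
    exact h1
  refine ⟨σ, ϖ, Finset.univ.image rep, ?_⟩
  refine
    { prime := hp
      card := hcard
      inv := hinvar
      σ_ne := hσ
      unif := hϖ
      ram := ?_
      R_fix := ?_
      R_int := ?_
      R_cover := ?_
      R_inj := ?_ }
  · -- ram
    intro a hfix ha0
    obtain ⟨a₀, rfl⟩ := (IsGalois.mem_range_algebraMap_iff_fixed (F := K) (E := L) a).2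
      (fun f => hfix f)
    have ha₀ : a₀ ≠ 0 := by
      rintro rfl
      exact ha0 (map_zero _)
    obtain ⟨m, hm⟩ := exists_eq_exp (w := v.valuation K) ha₀
    refine ⟨m, ?_⟩
    rw [hval, hm, ← WithZero.exp_nsmul]
    congr 1
    simp
  · -- R_fix
    intro r hr g
    obtain ⟨q, -, rfl⟩ := Finset.mem_image.1 hr
    exact g.commutes _
  · -- R_int
    intro r hr
    obtain ⟨q, -, rfl⟩ := Finset.mem_image.1 hr
    simp only [rep]
    rw [hcoe]
    exact w.valuation_le_one _
  · -- R_cover
    intro y hy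
    obtain ⟨c, hc⟩ := exists_int_valuation_sub_lt_one L w y hy
    obtain ⟨a, ha⟩ := exists_algebraMap_sub_mem_of_inertiaDeg_eq_one K L w hf c
    refine ⟨rep (Ideal.Quotient.mk v.asIdeal a), Finset.mem_image_of_mem _ (Finset.mem_univ _), ?_⟩
    set a' : 𝓞 K := Quotient.out (Ideal.Quotient.mk v.asIdeal a) with ha'
    have h3 : a - a' ∈ v.asIdeal := by
      rw [← Ideal.Quotient.eq, ha', Ideal.Quotient.mk_out]
    have h4 : algebraMap (𝓞 K) (𝓞 L) (a - a') ∈ w.asIdeal := h3
    have h5 : y - rep (Ideal.Quotient.mk v.asIdeal a) =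
        (y - (c : L)) + ((c - algebraMap (𝓞 K) (𝓞 L) a + algebraMap (𝓞 K) (𝓞 L) (a - a') : 𝓞 L) : L) := by
      have e0 : rep (Ideal.Quotient.mk v.asIdeal a) =
          ((algebraMap (𝓞 K) (𝓞 L) a' : 𝓞 L) : L) := hcoe a'
      rw [e0, map_sub]
      push_cast
      ring
    rw [h5]
    refine lt_of_le_of_lt (Valuation.map_add _ _ _) (max_lt hc ?_)
    rw [HeightOneSpectrum.valuation_lt_one_iff_mem]
    exact add_mem ha h4
  · -- R_inj
    intro r hr r' hr' hlt
    obtain ⟨q, -, rfl⟩ := Finset.mem_image.1 hr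
    obtain ⟨q', -, rfl⟩ := Finset.mem_image.1 hr'
    have h1 : rep q - rep q' =
        ((algebraMap (𝓞 K) (𝓞 L) (Quotient.out q - Quotient.out q') : 𝓞 L) : L) := by
      simp only [rep]
      rw [hcoe, hcoe, map_sub]
      push_cast
      ring
    rw [h1, HeightOneSpectrum.valuation_lt_one_iff_mem] at hlt
    have h2 : (Quotient.out q - Quotient.out q' : 𝓞 K) ∈ v.asIdeal := hlt
    have h3 : q = q' := by
      rw [← Ideal.Quotient.mk_out q, ← Ideal.Quotient.mk_out q', Ideal.Quotient.eq]
      exact h2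
    rw [h3]


/-- **Local first inequality at a ramified nonsplit place** (completion-free): if `L/K` is Galois
of prime degree `p` and `v` has a single prime of `L` above it, which is ramified, then some
`b ∈ Kˣ` is not an approximate norm at `v`. -/
theorem exists_not_approxNorm_of_nonsplit_ram [IsGalois K L] {p : ℕ} (hp : p.Prime)
    (hdeg : Module.finrank K L = p) (v : HeightOneSpectrum (𝓞 K)) (hv : Nonsplit K L v)
    (hram : ¬ UnramAt K L v) : ∃ b : K, b ≠ 0 ∧ ¬ ApproxNorm K L v b := by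
  obtain ⟨w, rfl⟩ := exists_under_eq K L v
  obtain ⟨hval, σ, ϖ, R, hR⟩ := isRam_of_nonsplit_ram K L hp hdeg w hv hram
  obtain ⟨c, hcfix, hc1, n, hn⟩ := hR.exists_not_norm
  obtain ⟨c₀, rfl⟩ := (IsGalois.mem_range_algebraMap_iff_fixed (F := K) (E := L) c).2
    (fun f => hcfix f)
  have hc₀1 : (w.under (𝓞 K)).valuation K c₀ = 1 := by
    rw [hval] at hc1
    exact eq_one_of_pow_eq_one hp.ne_zero hc1
  have hc₀0 : c₀ ≠ 0 := by
    rintro rfl
    simp at hc₀1
  refine ⟨c₀, hc₀0, fun hA => ?_⟩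
  obtain ⟨y, hy0, hy⟩ := hA (n + 1)
  have hN0 : Algebra.norm K y ≠ 0 := Algebra.norm_ne_zero_iff.mpr hy0
  have hlt : (w.under (𝓞 K)).valuation K (c₀ / Algebra.norm K y - 1) < 1 := by
    refine lt_of_le_of_lt hy ?_
    rw [← WithZero.exp_zero, WithZero.exp_lt_exp]
    push_cast
    omega
  have h1 : (w.under (𝓞 K)).valuation K (c₀ / Algebra.norm K y) = 1 := by
    have h2 := Valuation.map_one_add_of_lt ((w.under (𝓞 K)).valuation K) hlt
    simpa using h2
  have hvN : (w.under (𝓞 K)).valuation K (Algebra.norm K y) = 1 := by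
    rw [map_div₀, hc₀1, one_div, inv_eq_one] at h1
    exact h1
  have h3 : (w.under (𝓞 K)).valuation K (c₀ - Algebra.norm K y) ≤
      WithZero.exp (-((n + 1 : ℕ) : ℤ)) := by
    have : c₀ - Algebra.norm K y = Algebra.norm K y * (c₀ / Algebra.norm K y - 1) := by
      field_simp
    rw [this, map_mul, hvN, one_mul]
    exact hy
  have h4 := hn y hy0
  have h5 : ∏ g : L ≃ₐ[K] L, g • y = algebraMap K L (Algebra.norm K y) := by
    rw [Algebra.norm_eq_prod_automorphisms]
    rfl
  rw [h5, ← map_sub, hval] at h4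
  have hle1 : (w.under (𝓞 K)).valuation K (c₀ - Algebra.norm K y) ≤ 1 := by
    refine h3.trans ?_
    rw [← WithZero.exp_zero, WithZero.exp_le_exp]
    push_cast
    omega
  have h6 : (w.under (𝓞 K)).valuation K (c₀ - Algebra.norm K y) ^ p ≤
      WithZero.exp (-(n : ℤ)) := by
    calc (w.under (𝓞 K)).valuation K (c₀ - Algebra.norm K y) ^ p
        ≤ (w.under (𝓞 K)).valuation K (c₀ - Algebra.norm K y) ^ 1 :=
          pow_le_pow_right_of_le_one' hle1 hp.one_le
      _ = (w.under (𝓞 K)).valuation K (c₀ - Algebra.norm K y) := pow_one _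
      _ ≤ WithZero.exp (-((n + 1 : ℕ) : ℤ)) := h3
      _ ≤ WithZero.exp (-(n : ℤ)) := by
          rw [WithZero.exp_le_exp]
          push_cast
          omega
  exact absurd h6 (not_le.2 h4)

/-- **Local first inequality at every nonsplit place** of a Galois extension of prime degree. -/
theorem exists_not_approxNorm_of_nonsplit [IsGalois K L] {p : ℕ} (hp : p.Prime)
    (hdeg : Module.finrank K L = p) (v : HeightOneSpectrum (𝓞 K)) (hv : Nonsplit K L v) :
    ∃ b : K, b ≠ 0 ∧ ¬ ApproxNorm K L v b := by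
  by_cases hun : UnramAt K L v
  · exact exists_not_approxNorm_of_nonsplit_unram K L hp hdeg v hv hun
  · exact exists_not_approxNorm_of_nonsplit_ram K L hp hdeg v hv hun

end Fermat.Agent.CFT.Global.HNT.LocalIndex
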