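import Fermat.Agent.CFT.Global.HasseNorm.Inert

/-!
# Number-field bridge facts for the local first inequality at a ramified nonsplit place

`K ⊆ L` number fields, `L/K` Galois of prime degree `p`, `v` a finite place of `K` with a single
place `w` of `L` above it, ramified.  Then `e = p`, `f = 1`:

* `valuation_gal_eq` : `w` is Galois invariant;
* `valuation_algebraMap_eq_pow` : `w (x) = v (x) ^ p` for `x ∈ K`;
* `exists_int_close` : every `w`-integral element of `L` is `w`-close to an element of `𝓞 K`;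
* `exists_reps` : a finite set of representatives in `K` of the residue field of `w`;
* `fixed_val` : the value group of the fixed field is `p ℤ`.
-/

set_option autoImplicit false
set_option linter.unusedSectionVars false

open scoped NumberField WithZero
open IsDedekindDomain

namespace Fermat.Agent.CFT.Global.HNT.LIFacts

open Fermat.Agent.CFT.Global.HasseNorm

variable (K L : Type*) [Field K] [NumberField K] [Field L] [NumberField L] [Algebra K L]

variable {K L}

/-- A place with a single prime above it: the prime above is Galois invariant. -/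
theorem valuation_gal_eq {v : HeightOneSpectrum (𝓞 K)} (hv : Nonsplit K L v)
    {w : HeightOneSpectrum (𝓞 L)} (hw : w.under (𝓞 K) = v) (g : L ≃ₐ[K] L) (x : L) :
    w.valuation L (g x) = w.valuation L x := by
  have h : galSmul K L g w = w := hv _ _ ((under_galSmul K L g w).trans hw) hw
  have h2 := valuation_galSmul K L g w x
  rwa [h] at h2

theorem liesOver_of_under {v : HeightOneSpectrum (𝓞 K)}
    {w : HeightOneSpectrum (𝓞 L)} (hw : w.under (𝓞 K) = v) :
    w.asIdeal.LiesOver v.asIdeal := ⟨by rw [← hw]; rfl⟩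

/-- The valuation of `w` restricted to `K` is the `e`-th power of the valuation of `v`. -/
theorem valuation_algebraMap_eq_pow_ramificationIdx {v : HeightOneSpectrum (𝓞 K)}
    {w : HeightOneSpectrum (𝓞 L)} (hw : w.under (𝓞 K) = v) (x : K) :
    w.valuation L (algebraMap K L x) =
      v.valuation K x ^ (w.asIdeal.ramificationIdx (𝓞 K)) := by
  have : w.asIdeal.LiesOver v.asIdeal := liesOver_of_under hw
  rw [← Ideal.ramificationIdx'_eq_ramificationIdx v.asIdeal w.asIdeal v.ne_bot]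
  exact (HeightOneSpectrum.valuation_liesOver L v w x).symm

/-- `e * f = [L : K]` at a nonsplit place of a Galois extension. -/
theorem ramificationIdx_mul_inertiaDeg [IsGalois K L] {v : HeightOneSpectrum (𝓞 K)}
    (hv : Nonsplit K L v) {w : HeightOneSpectrum (𝓞 L)} (hw : w.under (𝓞 K) = v) :
    w.asIdeal.ramificationIdx (𝓞 K) * w.asIdeal.inertiaDeg (𝓞 K) = Module.finrank K L := by
  have hlo : w.asIdeal.LiesOver v.asIdeal := liesOver_of_under hw
  have : v.asIdeal.IsPrime := v.isPrime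
  have : w.asIdeal.IsPrime := w.isPrime
  have h := Ideal.ncard_primesOver_mul_ramificationIdxIn_mul_inertiaDegIn v.asIdeal (𝓞 L)
    (L ≃ₐ[K] L)
  rw [Ideal.ramificationIdxIn_eq_ramificationIdx v.asIdeal w.asIdeal (L ≃ₐ[K] L),
    Ideal.inertiaDegIn_eq_inertiaDeg v.asIdeal w.asIdeal (L ≃ₐ[K] L),
    IsGalois.card_aut_eq_finrank] at h
  have h1 : (Ideal.primesOver v.asIdeal (𝓞 L)).ncard = 1 := by
    rw [Set.ncard_eq_one]
    refine ⟨w.asIdeal, ?_⟩
    ext Q
    simp only [Set.mem_singleton_iff]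
    constructor
    · rintro ⟨hQ, hQv⟩
      have hQ0 : Q ≠ ⊥ := by
        rintro rfl
        apply v.ne_bot
        rw [hQv.over]
        exact Ideal.under_bot (𝓞 K) (𝓞 L)
      have h3 := hv ⟨Q, hQ, hQ0⟩ w (by ext1; exact hQv.over.symm) hw
      exact congrArg HeightOneSpectrum.asIdeal h3
    · rintro rfl
      exact ⟨w.isPrime, hlo⟩
  rw [h1, one_mul] at h
  exact h

/-- Ramified nonsplit place in a Galois extension of prime degree: `e = p` and `f = 1`. -/
theorem ramificationIdx_eq_and_inertiaDeg_eq [IsGalois K L] {p : ℕ} (hp : p.Prime)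
    (hdeg : Module.finrank K L = p) {v : HeightOneSpectrum (𝓞 K)} (hv : Nonsplit K L v)
    (hram : ¬ UnramAt K L v) {w : HeightOneSpectrum (𝓞 L)} (hw : w.under (𝓞 K) = v) :
    w.asIdeal.ramificationIdx (𝓞 K) = p ∧ w.asIdeal.inertiaDeg (𝓞 K) = 1 := by
  have h := ramificationIdx_mul_inertiaDeg hv hw
  rw [hdeg] at h
  have he : w.asIdeal.ramificationIdx (𝓞 K) ≠ 1 := by
    intro he
    apply hram
    intro w' hw' x
    have hww : w' = w := hv _ _ hw' hw
    rw [hww, valuation_algebraMap_eq_pow_ramificationIdx hw, he, pow_one]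
  have hdvd : w.asIdeal.ramificationIdx (𝓞 K) ∣ p := ⟨_, h.symm⟩
  have he' : w.asIdeal.ramificationIdx (𝓞 K) = p := by
    rcases (Nat.dvd_prime hp).mp hdvd with h1 | h1
    · exact absurd h1 he
    · exact h1
  refine ⟨he', ?_⟩
  rw [he'] at h
  exact Nat.eq_of_mul_eq_mul_left hp.pos (by rw [h, mul_one])

/-- (2) `e = p`: `w (x) = v (x) ^ p` for `x ∈ K`. -/
theorem valuation_algebraMap_eq_pow [IsGalois K L] {p : ℕ} (hp : p.Prime)
    (hdeg : Module.finrank K L = p) {v : HeightOneSpectrum (𝓞 K)} (hv : Nonsplit K L v)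
    (hram : ¬ UnramAt K L v) {w : HeightOneSpectrum (𝓞 L)} (hw : w.under (𝓞 K) = v) (x : K) :
    w.valuation L (algebraMap K L x) = v.valuation K x ^ p := by
  rw [valuation_algebraMap_eq_pow_ramificationIdx hw,
    (ramificationIdx_eq_and_inertiaDeg_eq hp hdeg hv hram hw).1]

/-- Residue degree one: every element of `𝓞 L` is congruent mod `w` to an element of `𝓞 K`. -/
theorem exists_int_sub_mem_of_inertiaDeg_eq_one {v : HeightOneSpectrum (𝓞 K)}
    {w : HeightOneSpectrum (𝓞 L)} (hw : w.under (𝓞 K) = v)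
    (hf : w.asIdeal.inertiaDeg (𝓞 K) = 1) (b : 𝓞 L) :
    ∃ a : 𝓞 K, b - algebraMap (𝓞 K) (𝓞 L) a ∈ w.asIdeal := by
  have hlo : w.asIdeal.LiesOver v.asIdeal := liesOver_of_under hw
  have : v.asIdeal.IsMaximal := v.isMaximal
  have : w.asIdeal.IsMaximal := w.isMaximal
  rw [Ideal.inertiaDeg_eq_of_isMaximal v.asIdeal w.asIdeal] at hf
  let : Field (𝓞 K ⧸ v.asIdeal) := Ideal.Quotient.field _
  let : Field (𝓞 L ⧸ w.asIdeal) := Ideal.Quotient.field _
  have h1 : (⊥ : Subalgebra (𝓞 K ⧸ v.asIdeal) (𝓞 L ⧸ w.asIdeal)) = ⊤ :=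
    Subalgebra.bot_eq_top_of_finrank_eq_one hf
  have h2 : Ideal.Quotient.mk w.asIdeal b ∈ (⊥ : Subalgebra (𝓞 K ⧸ v.asIdeal) (𝓞 L ⧸ w.asIdeal)) := by
    rw [h1]; exact Algebra.mem_top
  rw [Algebra.mem_bot] at h2
  obtain ⟨abar, ha⟩ := h2
  obtain ⟨a, rfl⟩ := Ideal.Quotient.mk_surjective abar
  refine ⟨a, ?_⟩
  rw [← Ideal.Quotient.eq, ← ha]
  rfl

/-- (3) `f = 1`: every `w`-integral element of `L` is `w`-close to an element of `𝓞 K`. -/
theorem exists_int_close [IsGalois K L] {p : ℕ} (hp : p.Prime)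
    (hdeg : Module.finrank K L = p) {v : HeightOneSpectrum (𝓞 K)} (hv : Nonsplit K L v)
    (hram : ¬ UnramAt K L v) {w : HeightOneSpectrum (𝓞 L)} (hw : w.under (𝓞 K) = v)
    (y : L) (hy : w.valuation L y ≤ 1) :
    ∃ a : 𝓞 K, w.valuation L (y - algebraMap K L (a : K)) < 1 := by
  obtain ⟨b, hb⟩ := w.exists_valuation_sub_lt_of_integer hy 1
  obtain ⟨a, ha⟩ := exists_int_sub_mem_of_inertiaDeg_eq_one hw
    (ramificationIdx_eq_and_inertiaDeg_eq hp hdeg hv hram hw).2 b
  refine ⟨a, ?_⟩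
  have h1 : w.valuation L (algebraMap (𝓞 L) L (b - algebraMap (𝓞 K) (𝓞 L) a)) < 1 :=
    (w.valuation_lt_one_iff_mem _).mpr ha
  have h2 : y - algebraMap K L (a : K) =
      -(algebraMap (𝓞 L) L b - y) + algebraMap (𝓞 L) L (b - algebraMap (𝓞 K) (𝓞 L) a) := by
    rw [map_sub]
    have : algebraMap (𝓞 L) L (algebraMap (𝓞 K) (𝓞 L) a) = algebraMap K L (a : K) := rfl
    rw [this]; ring
  rw [h2]
  refine lt_of_le_of_lt (Valuation.map_add _ _ _) (max_lt ?_ h1)
  rw [Valuation.map_neg]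
  simpa using hb

/-- (4) A finite set of representatives in `K` for the residue field of `w`. -/
theorem exists_reps [IsGalois K L] {p : ℕ} (hp : p.Prime)
    (hdeg : Module.finrank K L = p) {v : HeightOneSpectrum (𝓞 K)} (hv : Nonsplit K L v)
    (hram : ¬ UnramAt K L v) {w : HeightOneSpectrum (𝓞 L)} (hw : w.under (𝓞 K) = v) :
    ∃ R : Finset K, (∀ r ∈ R, v.valuation K r ≤ 1) ∧
      (∀ y : L, w.valuation L y ≤ 1 → ∃ r ∈ R, w.valuation L (y - algebraMap K L r) < 1) ∧
      (∀ r ∈ R, ∀ r' ∈ R, w.valuation L (algebraMap K L r - algebraMap K L r') < 1 → r = r') := by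
  classical
  have hfin : Finite (𝓞 K ⧸ v.asIdeal) := Ideal.finiteQuotientOfFreeOfNeBot v.asIdeal v.ne_bot
  have := Fintype.ofFinite (𝓞 K ⧸ v.asIdeal)
  -- a section of the quotient map
  let s : 𝓞 K ⧸ v.asIdeal → 𝓞 K := fun q => (Ideal.Quotient.mk_surjective q).choose
  have hs : ∀ q, Ideal.Quotient.mk v.asIdeal (s q) = q :=
    fun q => (Ideal.Quotient.mk_surjective q).choose_spec
  have hpow : ∀ x : K, w.valuation L (algebraMap K L x) = v.valuation K x ^ p :=
    valuation_algebraMap_eq_pow hp hdeg hv hram hw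
  have hlt : ∀ x : K, w.valuation L (algebraMap K L x) < 1 ↔ v.valuation K x < 1 := by
    intro x
    rw [hpow]
    exact pow_lt_one_iff_of_nonneg zero_le hp.ne_zero
  refine ⟨Finset.univ.image (fun q => ((s q : 𝓞 K) : K)), ?_, ?_, ?_⟩
  · intro r hr
    obtain ⟨q, -, rfl⟩ := Finset.mem_image.mp hr
    exact v.valuation_le_one _
  · intro y hy
    obtain ⟨a, ha⟩ := exists_int_close hp hdeg hv hram hw y hy
    refine ⟨((s (Ideal.Quotient.mk v.asIdeal a) : 𝓞 K) : K),
      Finset.mem_image.mpr ⟨_, Finset.mem_univ _, rfl⟩, ?_⟩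
    have h1 : a - s (Ideal.Quotient.mk v.asIdeal a) ∈ v.asIdeal := by
      rw [← Ideal.Quotient.eq, hs]
    have h2 : v.valuation K (algebraMap (𝓞 K) K (a - s (Ideal.Quotient.mk v.asIdeal a))) < 1 :=
      (v.valuation_lt_one_iff_mem _).mpr h1
    have h3 : y - algebraMap K L ((s (Ideal.Quotient.mk v.asIdeal a) : 𝓞 K) : K) =
        (y - algebraMap K L (a : K)) +
          algebraMap K L (algebraMap (𝓞 K) K (a - s (Ideal.Quotient.mk v.asIdeal a))) := by
      rw [map_sub, map_sub]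
      have e1 : algebraMap (𝓞 K) K a = (a : K) := rfl
      have e2 : algebraMap (𝓞 K) K (s (Ideal.Quotient.mk v.asIdeal a)) =
          ((s (Ideal.Quotient.mk v.asIdeal a) : 𝓞 K) : K) := rfl
      rw [e1, e2]; ring
    rw [h3]
    exact lt_of_le_of_lt (Valuation.map_add _ _ _) (max_lt ha ((hlt _).mpr h2))
  · intro r hr r' hr' hlt'
    obtain ⟨q, -, rfl⟩ := Finset.mem_image.mp hr
    obtain ⟨q', -, rfl⟩ := Finset.mem_image.mp hr'
    rw [← map_sub, hlt] at hlt'
    have h1 : v.valuation K (algebraMap (𝓞 K) K (s q - s q')) < 1 := by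
      rw [map_sub]; exact hlt'
    have h2 : s q - s q' ∈ v.asIdeal := (v.valuation_lt_one_iff_mem _).mp h1
    have h3 : q = q' := by
      rw [← hs q, ← hs q', Ideal.Quotient.eq]; exact h2
    rw [h3]

/-- (5) The value group of the fixed field is `p ℤ`. -/
theorem fixed_val [IsGalois K L] {p : ℕ} (hp : p.Prime)
    (hdeg : Module.finrank K L = p) {v : HeightOneSpectrum (𝓞 K)} (hv : Nonsplit K L v)
    (hram : ¬ UnramAt K L v) {w : HeightOneSpectrum (𝓞 L)} (hw : w.under (𝓞 K) = v)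
    (a : L) (ha : ∀ g : L ≃ₐ[K] L, g a = a) (ha0 : a ≠ 0) :
    ∃ m : ℤ, w.valuation L a = WithZero.exp (-((p : ℤ) * m)) := by
  have h1 : a ∈ (⊥ : IntermediateField K L) := (IsGalois.mem_bot_iff_fixed a).mpr ha
  rw [IntermediateField.mem_bot] at h1
  obtain ⟨b, rfl⟩ := h1
  have hb0 : b ≠ 0 := by
    rintro rfl
    exact ha0 (map_zero _)
  have hvb : v.valuation K b ≠ 0 := (Valuation.ne_zero_iff _).mpr hb0
  refine ⟨-(v.valuation K b).log, ?_⟩
  rw [valuation_algebraMap_eq_pow hp hdeg hv hram hw, ← WithZero.exp_log hvb, ← WithZero.exp_nsmul]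
  congr 1
  simp

end Fermat.Agent.CFT.Global.HNT.LIFacts
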