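import Fermat.Agent.CFT.Global.HNT.LINorm

/-!
# Completion-free local norm index, part 5: the core theorem (ramified case)
-/

namespace Fermat.Agent.CFT.Global.HNT.LocalIndex

open WithZero Finset Polynomial

set_option linter.unusedSectionVars false

variable {L : Type*} [Field L] {G : Type*} [Group G] [Fintype G] [MulSemiringAction G L]
variable {w : Valuation L ℤᵐ⁰} {p : ℕ} {σ : G} {ϖ : L} {R : Finset L}

omit [Fintype G] [MulSemiringAction G L] in
lemma eq_one_of_pow_eq_one {a : ℤᵐ⁰} {p : ℕ} (hp : p ≠ 0) (h : a ^ p = 1) : a = 1 := by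
  rcases eq_or_ne a 0 with rfl | ha
  · rw [zero_pow hp] at h; exact absurd h zero_ne_one
  · rw [← exp_log ha, ← exp_nsmul, exp_eq_one] at h
    rw [← exp_log ha, exp_eq_one]
    simpa [hp] using h

namespace IsRam

/-- In the wild case, `r ^ p ≡ 1` forces `r ≡ 1` modulo `P 1` for integral `r`. -/
lemma sub_one_mem_of_pow (h : IsRam w p σ ϖ R) (hp1 : w (p : L) < 1) {r : L} (hr : r ∈ P w 0)
    (hrp : r ^ p - 1 ∈ P w 1) : r - 1 ∈ P w 1 := by
  by_contra hcon
  set s := r - 1 with hs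
  have hs0 : s ∈ P w 0 := sub_mem hr one_mem_P
  have hsval : w s = 1 := by
    have h1 : w s ≤ 1 := by simpa [mem_P_iff] using hs0
    have h2 : ¬ w s < 1 := fun h3 => hcon (lt_one_iff_mem_P.1 h3)
    exact le_antisymm h1 (not_lt.1 h2)
  have hr_eq : r = s + 1 := by rw [hs]; ring
  have hexp := add_one_pow_eq s p
  obtain ⟨q, hq⟩ : ∃ q, p = q + 1 := ⟨p - 1, by have := h.prime.pos; omega⟩
  have hmid : ∑ k ∈ range q, (p.choose (k + 1)) • s ^ (k + 1) ∈ P w 1 := by
    refine sum_mem fun k hk => ?_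
    rw [Finset.mem_range] at hk
    obtain ⟨c, hc⟩ := h.prime.dvd_choose_self (k := k + 1) (by omega) (by omega)
    have hcc : (p * c) • s ^ (k + 1) = (p : L) * (c • s ^ (k + 1)) := by
      rw [nsmul_eq_mul, nsmul_eq_mul]; push_cast; ring
    rw [hc, hcc]
    have h1 : s ^ (k + 1) ∈ P w 0 := by simpa using pow_mem_P hs0 (k + 1)
    exact mul_mem_P' (lt_one_iff_mem_P.1 hp1) (nsmul_mem h1 c) (by omega)
  have hsp : s ^ p ∈ P w 1 := by
    have h1 : s ^ p = (r ^ p - 1) - ∑ k ∈ range q, (p.choose (k + 1)) • s ^ (k + 1) := by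
      rw [hr_eq, hexp]
      conv_lhs => rw [hq]
      rw [Finset.sum_range_succ]
      conv_rhs => rw [hq]
      rw [Finset.sum_range_succ']
      simp only [← hq, Nat.choose_self, one_smul, Nat.choose_zero_right, pow_zero]
      ring
    rw [h1]
    exact sub_mem hrp hmid
  have := lt_one_iff_mem_P.2 hsp
  rw [map_pow, hsval, one_pow] at this
  exact lt_irrefl _ this

/-- Step 1 (wild case): if `N y ≡ 1` mod `P (p t)` then `y` is a unit congruent to `1` mod
`P t`. -/
lemma mem_Ut_of_nm (h : IsRam w p σ ϖ R) (t : ℕ) (ht1 : 1 ≤ t)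
    (ht : w (σ • ϖ / ϖ - 1) = exp (-(t : ℤ))) {y : L}
    (hN : nm G y - 1 ∈ P w ((p : ℤ) * t)) : w y = 1 ∧ y - 1 ∈ P w t := by
  obtain ⟨hp, hp1⟩ := h.wild_of_pos t ht1 ht
  have hp2 : (2 : ℤ) ≤ p := by exact_mod_cast h.prime.two_le
  have ht1' : (1 : ℤ) ≤ t := by exact_mod_cast ht1
  have hN1 : nm G y - 1 ∈ P w 1 := P_mono (by nlinarith) hN
  have hNval : w (nm G y) = 1 := by
    have : nm G y = 1 + (nm G y - 1) := by ring
    rw [this]
    exact Valuation.map_one_add_of_lt w (lt_one_iff_mem_P.2 hN1)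
  have hyval : w y = 1 := by
    rw [h.val_nm] at hNval
    exact eq_one_of_pow_eq_one h.prime.ne_zero hNval
  refine ⟨hyval, ?_⟩
  -- residue
  obtain ⟨r, hr, hyr⟩ := h.R_cover y hyval.le
  have hyr' : y - r ∈ P w 1 := lt_one_iff_mem_P.1 hyr
  have hr0 : r ∈ P w 0 := by simpa [mem_P_iff] using h.R_int r hr
  have hy0 : y ∈ P w 0 := by rw [mem_P_iff, hyval]; simp
  have h1 := prod_sub_prod_mem_P (w := w) (Finset.univ : Finset G) (fun g => g • y)
    (fun _ => r) (n := 1) (fun g _ => h.smul_mem_P g hy0) (fun _ _ => hr0) (fun g _ => by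
      have : g • y - r = g • (y - r) := by rw [smul_sub, h.R_fix r hr g]
      rw [this]
      exact h.smul_mem_P g hyr')
  rw [Finset.prod_const, h.card_univ] at h1
  have hrp : r ^ p - 1 ∈ P w 1 := by
    have : r ^ p - 1 = (nm G y - 1) - (nm G y - r ^ p) := by ring
    rw [this]
    exact sub_mem hN1 h1
  have hr1 := h.sub_one_mem_of_pow hp1 hr0 hrp
  have hy1 : y - 1 ∈ P w 1 := by
    have : y - 1 = (y - r) + (r - 1) := by ring
    rw [this]
    exact add_mem hyr' hr1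
  by_contra hcon
  have hx0 : y - 1 ≠ 0 := fun h0 => hcon (by rw [h0]; exact zero_mem _)
  obtain ⟨i, hi⟩ := exists_eq_exp (w := w) hx0
  have hi1 : 1 ≤ i := (mem_P_of_eq_exp hi).1 hy1
  have hit : i < t := by
    by_contra h2
    exact hcon ((mem_P_of_eq_exp hi).2 (not_lt.1 h2))
  have h3 := h.val_nm_one_add_sub_one t ht hi1 hit hi
  rw [add_sub_cancel] at h3
  have h4 := (mem_P_of_eq_exp h3).1 hN
  have : (p : ℤ) * i < p * t := by nlinarith
  omega

end IsRam

/-- **Core theorem (ramified case).** In the situation `IsRam`, some fixed unit `c` is not even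
an approximate norm: `w (c - N y) > exp (-n)` for all `y ≠ 0`. -/
theorem IsRam.exists_not_norm (h : IsRam w p σ ϖ R) :
    ∃ c : L, (∀ g : G, g • c = c) ∧ w c = 1 ∧
      ∃ n : ℕ, ∀ y : L, y ≠ 0 → exp (-(n : ℤ)) < w (c - ∏ g : G, g • y) := by
  classical
  have hϖ0 := h.unif_ne_zero
  have hz0 : σ • ϖ / ϖ - 1 ≠ 0 := by
    intro h0
    apply h.σ_unif_ne
    field_simp at h0
    linear_combination h0
  have hu0val : w (σ • ϖ / ϖ) = 1 := h.σ_ratio_val hϖ0
  obtain ⟨t', ht'⟩ := exists_eq_exp (w := w) hz0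
  have ht'0 : 0 ≤ t' := by
    refine (mem_P_of_eq_exp ht').1 (sub_mem ?_ one_mem_P)
    rw [mem_P_iff, hu0val]; simp
  obtain ⟨t, rfl⟩ := Int.eq_ofNat_of_zero_le ht'0
  have ht : w (σ • ϖ / ϖ - 1) = exp (-(t : ℤ)) := ht'
  have htm : σ • ϖ / ϖ - 1 ∈ P w t := by rw [mem_P_iff, ht]
  have hp2 : (2 : ℤ) ≤ p := by exact_mod_cast h.prime.two_le
  by_contra hcon
  push Not at hcon
  -- the uniformiser of the fixed field
  set π := nm G ϖ with hπ
  have hπval : w π = exp (-(p : ℤ)) := by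
    rw [hπ, h.val_nm, h.unif, ← exp_nsmul]; congr 1; simp
  have hπfix : ∀ g : G, g • π = π := fun g => smul_nm g ϖ
  have hπt : w (π ^ t) = exp (-((p : ℤ) * t)) := by
    rw [map_pow, hπval, ← exp_nsmul]; congr 1; simp [mul_comm]
  have hϖt : w (ϖ ^ t) = exp (-(t : ℤ)) := by
    rw [map_pow, h.unif, ← exp_nsmul]; congr 1; simp
  set N : ℕ := p * (t + 1) with hN
  let a : L → L := fun r => 1 + r * ϖ ^ t
  let b : L → L := fun r => 1 + r * π ^ t
  let Rt : Finset L := R.filter (fun r => w (a r) = 1)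
  let U : L → Prop := fun y => w y = 1 ∧ y - 1 ∈ P w t
  have hRt : ∀ r ∈ Rt, r ∈ R ∧ w (a r) = 1 := fun r hr => Finset.mem_filter.1 hr
  have hbfix : ∀ r ∈ Rt, ∀ g : G, g • b r = b r := by
    intro r hr g
    simp only [b, smul_add, smul_one, smul_mul', smul_pow', hπfix g, h.R_fix r (hRt r hr).1 g]
  have hbmem : ∀ r ∈ Rt, b r - 1 ∈ P w ((p : ℤ) * t) := by
    intro r hr
    have hr0 : r ∈ P w 0 := by simpa [mem_P_iff] using h.R_int r (hRt r hr).1
    have : b r - 1 = r * π ^ t := by simp [b]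
    rw [this]
    exact mul_mem_P' hr0 (by rw [mem_P_iff, hπt]) (by omega)
  have hbval : ∀ r ∈ Rt, w (b r) = 1 := by
    intro r hr
    rcases Nat.eq_zero_or_pos t with rfl | ht1
    · have := (hRt r hr).2
      simpa [a, b] using this
    · have h1 : b r = 1 + (b r - 1) := by ring
      rw [h1]
      refine Valuation.map_one_add_of_lt w (lt_one_iff_mem_P.2 (P_mono ?_ (hbmem r hr)))
      have : (1 : ℤ) ≤ t := by exact_mod_cast ht1
      nlinarith
  -- covering: every element of `U` is congruent to some `a r`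
  have hcover : ∀ y, U y → ∃ r ∈ Rt, y - a r ∈ P w ((t : ℤ) + 1) := by
    intro y hy
    have hz : (y - 1) / ϖ ^ t ∈ P w 0 := by
      have := div_mem_P hy.2 hϖt
      simpa using this
    obtain ⟨r, hr, hzr⟩ := h.R_cover _ ((mem_P_iff.1 hz).trans (by simp))
    have hzr' := lt_one_iff_mem_P.1 hzr
    have hya : y - a r ∈ P w ((t : ℤ) + 1) := by
      have : y - a r = ((y - 1) / ϖ ^ t - r) * ϖ ^ t := by
        simp only [a]; field_simp; ring
      rw [this]
      exact mul_mem_P' hzr' (by rw [mem_P_iff, hϖt]) (by omega)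
    refine ⟨r, Finset.mem_filter.2 ⟨hr, ?_⟩, hya⟩
    have h1 : a r = y + -(y - a r) := by ring
    rw [h1]
    have h2 : w (-(y - a r)) < w y := by
      rw [Valuation.map_neg, hy.1]
      exact lt_one_iff_mem_P.2 (P_mono (by omega) hya)
    rw [Valuation.map_add_eq_of_lt_left w h2, hy.1]
  -- the norm respects congruence mod `P (t+1)` on `U`
  have hresp : ∀ y y', U y → U y' → y - y' ∈ P w ((t : ℤ) + 1) →
      nm G y - nm G y' ∈ P w (N : ℤ) := by
    intro y y' hy hy' hyy'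
    have hy'0 : y' ≠ 0 := by
      intro h0; have := hy'.1; rw [h0, map_zero] at this; exact zero_ne_one this
    have hx : (y - y') / y' ∈ P w ((t : ℤ) + 1) := by
      have := div_mem_P hyy' (by rw [hy'.1]; simp : w y' = exp (-(0 : ℤ)))
      simpa using this
    have h1 := h.nm_one_add_sub_one_mem t ht hx
    have h2 : nm G y - nm G y' = nm G y' * (nm G (1 + (y - y') / y') - 1) := by
      have : y = y' * (1 + (y - y') / y') := by field_simp; ring
      conv_lhs => rw [this, nm_mul]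
      ring
    rw [h2]
    have h3 : nm G y' ∈ P w 0 := by
      rw [mem_P_iff, h.val_nm, hy'.1]; simp
    refine mul_mem_P' h3 h1 ?_
    rw [hN]; push_cast; omega
  -- distinct representatives give incongruent `b`'s
  have hbinj : ∀ r ∈ Rt, ∀ r' ∈ Rt, b r - b r' ∈ P w (N : ℤ) → r = r' := by
    intro r hr r' hr' hbb
    have h1 : b r - b r' = (r - r') * π ^ t := by simp only [b]; ring
    rw [h1] at hbb
    have h2 := div_mem_P hbb hπt
    have hπt0 : π ^ t ≠ 0 := by
      intro h0; rw [h0, map_zero] at hπt; exact exp_ne_zero hπt.symm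
    rw [mul_div_assoc, div_self hπt0, mul_one] at h2
    refine h.R_inj r (hRt r hr).1 r' (hRt r' hr').1 (lt_one_iff_mem_P.2 (P_mono ?_ h2))
    rw [hN]; push_cast; nlinarith
  -- by contradiction, every `b r` is an approximate norm
  have H : ∀ r ∈ Rt, ∃ y : L, (b r - nm G y ∈ P w (N : ℤ)) ∧ U y ∧
      ∃ s ∈ Rt, y - a s ∈ P w ((t : ℤ) + 1) := by
    intro r hr
    obtain ⟨y, hy0, hy⟩ := hcon (b r) (hbfix r hr) (hbval r hr) N
    have hyN : b r - nm G y ∈ P w (N : ℤ) := hy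
    have hyU : U y := by
      rcases Nat.eq_zero_or_pos t with rfl | ht1
      · have h1 : w (nm G y) = 1 := by
          have h2 : nm G y = b r + -(b r - nm G y) := by ring
          have h3 : w (-(b r - nm G y)) < w (b r) := by
            rw [Valuation.map_neg, hbval r hr]
            refine lt_one_iff_mem_P.2 (P_mono ?_ hyN)
            rw [hN]; push_cast; omega
          rw [h2, Valuation.map_add_eq_of_lt_left w h3, hbval r hr]
        rw [h.val_nm] at h1
        have hyval := eq_one_of_pow_eq_one h.prime.ne_zero h1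
        refine ⟨hyval, ?_⟩
        refine sub_mem ?_ one_mem_P
        rw [mem_P_iff, hyval]; simp
      · refine h.mem_Ut_of_nm t ht1 ht ?_
        have h1 : nm G y - 1 = (b r - 1) - (b r - nm G y) := by ring
        rw [h1]
        refine sub_mem (hbmem r hr) (P_mono ?_ hyN)
        rw [hN]; push_cast; nlinarith
    exact ⟨y, hyN, hyU, hcover y hyU⟩
  choose! yf hyN hyU sf hsR hsa using H
  have hsinj : ∀ r₁ r₂ (h₁ : r₁ ∈ Rt) (h₂ : r₂ ∈ Rt), sf r₁ = sf r₂ → r₁ = r₂ := by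
    intro r₁ r₂ h₁ h₂ h12
    have h3 : yf r₁ - yf r₂ ∈ P w ((t : ℤ) + 1) := by
      have : yf r₁ - yf r₂ = (yf r₁ - a (sf r₁)) - (yf r₂ - a (sf r₂)) := by rw [h12]; ring
      rw [this]
      exact sub_mem (hsa r₁ h₁) (hsa r₂ h₂)
    have h4 := hresp _ _ (hyU r₁ h₁) (hyU r₂ h₂) h3
    refine hbinj r₁ h₁ r₂ h₂ ?_
    have : b r₁ - b r₂ = (b r₁ - nm G (yf r₁)) - (b r₂ - nm G (yf r₂)) +
        (nm G (yf r₁) - nm G (yf r₂)) := by ring
    rw [this]
    exact add_mem (sub_mem (hyN r₁ h₁) (hyN r₂ h₂)) h4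
  have hsurj := Finset.surj_on_of_inj_on_of_card_le (s := Rt) (t := Rt) (fun r _ => sf r)
    (fun r hr => hsR r hr) hsinj le_rfl
  -- the two classes `σ ϖ / ϖ` and `1`
  have hU0 : U (σ • ϖ / ϖ) := ⟨hu0val, htm⟩
  have hU1 : U 1 := ⟨map_one w, by rw [sub_self]; exact zero_mem _⟩
  obtain ⟨r₁, hr₁, hr₁a⟩ := hcover _ hU0
  obtain ⟨r₀, hr₀, hr₀a⟩ := hcover _ hU1
  obtain ⟨r₁', hr₁', hr₁eq⟩ := hsurj r₁ hr₁
  obtain ⟨r₀', hr₀', hr₀eq⟩ := hsurj r₀ hr₀
  have key : ∀ (u r r' : L), U u → nm G u = 1 → r' ∈ Rt → r = sf r' →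
      u - a r ∈ P w ((t : ℤ) + 1) → b r' - 1 ∈ P w (N : ℤ) := by
    intro u r r' hu hnu hr' hreq hua
    have h3 : u - yf r' ∈ P w ((t : ℤ) + 1) := by
      have : u - yf r' = (u - a r) - (yf r' - a (sf r')) := by rw [hreq]; ring
      rw [this]
      exact sub_mem hua (hsa r' hr')
    have h4 := hresp _ _ hu (hyU r' hr') h3
    rw [hnu] at h4
    have : b r' - 1 = (b r' - nm G (yf r')) - (1 - nm G (yf r')) := by ring
    rw [this]
    exact sub_mem (hyN r' hr') h4
  have k1 := key _ r₁ r₁' hU0 (nm_ratio σ hϖ0) hr₁' hr₁eq hr₁a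
  have k0 := key _ r₀ r₀' hU1 nm_one hr₀' hr₀eq hr₀a
  have hrr : r₁' = r₀' := by
    refine hbinj r₁' hr₁' r₀' hr₀' ?_
    have : b r₁' - b r₀' = (b r₁' - 1) - (b r₀' - 1) := by ring
    rw [this]
    exact sub_mem k1 k0
  have hr10 : r₁ = r₀ := by rw [hr₁eq, hr₀eq, hrr]
  have hfin : σ • ϖ / ϖ - 1 ∈ P w ((t : ℤ) + 1) := by
    have : σ • ϖ / ϖ - 1 = (σ • ϖ / ϖ - a r₁) - (1 - a r₀) := by rw [hr10]; ring
    rw [this]
    exact sub_mem hr₁a hr₀a
  have := (mem_P_of_eq_exp ht).1 hfin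
  omega

end Fermat.Agent.CFT.Global.HNT.LocalIndex
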