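import Fermat.Agent.CFT.Global.HNT.LIFilt

/-!
# Completion-free local norm index, part 2: the operator `σ - 1` and the trace
-/

namespace Fermat.Agent.CFT.Global.HNT.LocalIndex

open WithZero Finset

set_option linter.unusedSectionVars false

section Ring

variable {R : Type*} [Ring R]

lemma add_one_pow_eq (D : R) (n : ℕ) :
    (D + 1) ^ n = ∑ m ∈ range (n + 1), (n.choose m) • D ^ m := by
  rw [(Commute.one_right D).add_pow]
  refine Finset.sum_congr rfl fun m _ => ?_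
  simp [nsmul_eq_mul, (Nat.cast_commute (n.choose m) (D ^ m)).eq]

lemma geom_sum_add_one (D : R) (n : ℕ) :
    ∑ j ∈ range n, (D + 1) ^ j = ∑ k ∈ range n, (n.choose (k + 1)) • D ^ k := by
  induction n with
  | zero => simp
  | succ n ih =>
    rw [Finset.sum_range_succ, ih, add_one_pow_eq]
    have h1 : ∑ k ∈ range (n + 1), ((n + 1).choose (k + 1)) • D ^ k =
        ∑ k ∈ range (n + 1), (n.choose k) • D ^ k +
          ∑ k ∈ range (n + 1), (n.choose (k + 1)) • D ^ k := by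
      rw [← Finset.sum_add_distrib]
      refine Finset.sum_congr rfl fun k _ => ?_
      rw [Nat.choose_succ_succ, add_smul]
    have h2 : ∑ k ∈ range (n + 1), (n.choose (k + 1)) • D ^ k =
        ∑ k ∈ range n, (n.choose (k + 1)) • D ^ k := by
      rw [Finset.sum_range_succ, Nat.choose_succ_self, zero_smul, add_zero]
    rw [h1, h2, add_comm]

end Ring

variable {L : Type*} [Field L] {G : Type*} [Group G] [Fintype G] [MulSemiringAction G L]

/-- The hypotheses of the totally ramified situation: `G` of prime order `p` generated by `σ`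
acting on `L` preserving the valuation `w`, `ϖ` a uniformiser, the fixed field having value
group `p ℤ`, and `R` a finite set of fixed integral representatives of the residue field. -/
structure IsRam (w : Valuation L ℤᵐ⁰) (p : ℕ) (σ : G) (ϖ : L) (R : Finset L) : Prop where
  prime : p.Prime
  card : Nat.card G = p
  inv : ∀ (g : G) (x : L), w (g • x) = w x
  σ_ne : σ ≠ 1
  unif : w ϖ = exp (-1 : ℤ)
  ram : ∀ a : L, (∀ g : G, g • a = a) → a ≠ 0 → ∃ m : ℤ, w a = exp (-((p : ℤ) * m))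
  R_fix : ∀ r ∈ R, ∀ g : G, g • r = r
  R_int : ∀ r ∈ R, w r ≤ 1
  R_cover : ∀ y : L, w y ≤ 1 → ∃ r ∈ R, w (y - r) < 1
  R_inj : ∀ r ∈ R, ∀ r' ∈ R, w (r - r') < 1 → r = r'

namespace IsRam

variable {w : Valuation L ℤᵐ⁰} {p : ℕ} {σ : G} {ϖ : L} {R : Finset L}

lemma smul_mem_P (h : IsRam w p σ ϖ R) (g : G) {n : ℤ} {x : L} (hx : x ∈ P w n) :
    g • x ∈ P w n := by
  rw [mem_P_iff] at hx ⊢
  rwa [h.inv]

lemma orderOf_σ (h : IsRam w p σ ϖ R) : orderOf σ = p := by
  have h1 : orderOf σ ∣ p := by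
    have := orderOf_dvd_natCard σ
    rwa [h.card] at this
  rcases (Nat.dvd_prime h.prime).1 h1 with h2 | h2
  · exact absurd (orderOf_eq_one_iff.1 h2) h.σ_ne
  · exact h2

lemma pow_p (h : IsRam w p σ ϖ R) : σ ^ p = 1 := by
  rw [← h.orderOf_σ]; exact pow_orderOf_eq_one σ

lemma exists_pow (h : IsRam w p σ ϖ R) (g : G) : ∃ j : ℕ, j < p ∧ σ ^ j = g := by
  have : Fact p.Prime := ⟨h.prime⟩
  have h1 : g ∈ Subgroup.zpowers σ := by
    rw [zpowers_eq_top_of_prime_card h.card h.σ_ne]; trivial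
  rw [← mem_powers_iff_mem_zpowers] at h1
  obtain ⟨j, rfl⟩ := h1
  refine ⟨j % p, Nat.mod_lt _ h.prime.pos, ?_⟩
  conv_lhs => rw [← h.orderOf_σ]
  exact pow_mod_orderOf σ j

lemma fixed_of_σ (h : IsRam w p σ ϖ R) {a : L} (ha : σ • a = a) (g : G) : g • a = a := by
  obtain ⟨j, -, rfl⟩ := h.exists_pow g
  induction j with
  | zero => simp
  | succ j ih => rw [pow_succ, mul_smul, ha, ih]

lemma univ_eq (h : IsRam w p σ ϖ R) [DecidableEq G] :
    (Finset.univ : Finset G) = (Finset.range p).image (fun j => σ ^ j) := by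
  ext g
  simp only [Finset.mem_univ, Finset.mem_image, Finset.mem_range, true_iff]
  exact h.exists_pow g

lemma sum_univ_eq (h : IsRam w p σ ϖ R) (f : G → L) :
    ∑ g : G, f g = ∑ j ∈ Finset.range p, f (σ ^ j) := by
  classical
  rw [h.univ_eq, Finset.sum_image]
  intro i hi j hj hij
  have := pow_injOn_Iio_orderOf (x := σ)
  rw [h.orderOf_σ] at this
  exact this (by simpa using hi) (by simpa using hj) hij

lemma unif_ne_zero (h : IsRam w p σ ϖ R) : ϖ ≠ 0 := by
  intro h0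
  have := h.unif
  rw [h0, map_zero] at this
  exact exp_ne_zero this.symm

lemma σ_unif_ne (h : IsRam w p σ ϖ R) : σ • ϖ ≠ ϖ := by
  intro h0
  obtain ⟨m, hm⟩ := h.ram ϖ (h.fixed_of_σ h0) h.unif_ne_zero
  rw [h.unif, exp_inj] at hm
  have h2 : (p : ℤ) ∣ 1 := ⟨m, by omega⟩
  have h3 := Int.natCast_dvd_natCast.1 (by simpa using h2 : ((p : ℕ) : ℤ) ∣ ((1 : ℕ) : ℤ))
  exact h.prime.one_lt.ne' (Nat.dvd_one.1 h3)

/-- Every integral element is fixed by `σ` modulo `P (t+1)` when `σ ϖ / ϖ ≡ 1` mod `P t`. -/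
lemma sub_mem_of_int (h : IsRam w p σ ϖ R) (t : ℕ) (ht : σ • ϖ / ϖ - 1 ∈ P w t) :
    ∀ m : ℕ, m ≤ t + 1 → ∀ y ∈ P w 0, σ • y - y ∈ P w m := by
  intro m
  induction m with
  | zero =>
    intro _ y hy
    exact sub_mem (h.smul_mem_P σ hy) hy
  | succ m ih =>
    intro hm y hy
    obtain ⟨r, hr, hyr⟩ := h.R_cover y (by simpa [mem_P_iff] using hy)
    have hyr' : y - r ∈ P w 1 := lt_one_iff_mem_P.1 hyr
    set y' := (y - r) / ϖ with hy'
    have hy'0 : y' ∈ P w 0 := by
      have := div_mem_P hyr' h.unif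
      simpa using this
    have hϖ0 := h.unif_ne_zero
    have hy_eq : y = r + ϖ * y' := by
      rw [hy']; field_simp; ring
    have hϖ1 : ϖ ∈ P w 1 := by rw [mem_P_iff, h.unif]
    have hdϖ : σ • ϖ - ϖ ∈ P w (1 + t) := by
      have : σ • ϖ - ϖ = ϖ * (σ • ϖ / ϖ - 1) := by field_simp
      rw [this]
      exact mul_mem_P hϖ1 ht
    have key : σ • y - y = σ • ϖ * (σ • y' - y') + (σ • ϖ - ϖ) * y' := by
      rw [hy_eq, smul_add, smul_mul', h.R_fix r hr σ]; ring
    rw [key]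
    refine add_mem (mul_mem_P' (h.smul_mem_P σ hϖ1) (ih (by omega) y' hy'0) (by push_cast; omega))
      (mul_mem_P' hdϖ hy'0 (by push_cast; omega))

lemma σ_ratio_val (h : IsRam w p σ ϖ R) {x : L} (hx : x ≠ 0) : w (σ • x / x) = 1 := by
  rw [map_div₀, h.inv, div_self ((Valuation.ne_zero_iff w).2 hx)]

/-- `σ x / x ≡ 1` mod `P t` for all nonzero `x`. -/
lemma ratio_sub_one_mem (h : IsRam w p σ ϖ R) (t : ℕ) (ht : σ • ϖ / ϖ - 1 ∈ P w t)
    {x : L} (hx : x ≠ 0) : σ • x / x - 1 ∈ P w t := by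
  -- the subgroup of units satisfying the conclusion
  let H : Subgroup Lˣ :=
    { carrier := {u | σ • (u : L) / u - 1 ∈ P w t}
      one_mem' := by simp
      mul_mem' := by
        intro a b ha hb
        simp only [Set.mem_ofPred_eq] at ha hb ⊢
        have ha0 : (a : L) ≠ 0 := a.ne_zero
        have hb0 : (b : L) ≠ 0 := b.ne_zero
        have hsa : σ • (a : L) ≠ 0 := by
          rw [Ne, smul_eq_zero_iff_eq]; exact ha0
        have key : σ • ((a * b : Lˣ) : L) / ((a * b : Lˣ) : L) - 1 =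
            (σ • (a : L) / a) * (σ • (b : L) / b - 1) + (σ • (a : L) / a - 1) := by
          rw [Units.val_mul, smul_mul']; field_simp; ring
        rw [key]
        have h0 : σ • (a : L) / a ∈ P w 0 := by
          rw [mem_P_iff, h.σ_ratio_val ha0]; simp
        exact add_mem (mul_mem_P' h0 hb (by omega)) ha
      inv_mem' := by
        intro a ha
        simp only [Set.mem_ofPred_eq] at ha ⊢
        have ha0 : (a : L) ≠ 0 := a.ne_zero
        have hsa : σ • (a : L) ≠ 0 := by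
          rw [Ne, smul_eq_zero_iff_eq]; exact ha0
        have key : σ • ((a⁻¹ : Lˣ) : L) / ((a⁻¹ : Lˣ) : L) - 1 =
            -((σ • (a : L) / a - 1) * ((a : L) / σ • (a : L))) := by
          rw [Units.val_inv_eq_inv_val, smul_inv'']; field_simp; ring
        rw [key]
        have h0 : (a : L) / σ • (a : L) ∈ P w 0 := by
          rw [mem_P_iff, map_div₀, h.inv, div_self ((Valuation.ne_zero_iff w).2 ha0)]; simp
        exact neg_mem (mul_mem_P' ha h0 (by omega)) }
  obtain ⟨n, hn⟩ := exists_eq_exp (w := w) hx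
  let ϖu : Lˣ := Units.mk0 ϖ h.unif_ne_zero
  let xu : Lˣ := Units.mk0 x hx
  let yu : Lˣ := xu * ϖu ^ (-n)
  have hϖH : ϖu ∈ H := ht
  have hyval : w (yu : L) = 1 := by
    simp only [yu, xu, ϖu, Units.val_mul, Units.val_mk0, Units.val_zpow_eq_zpow_val, map_mul,
      map_zpow₀, hn, h.unif]
    rw [← exp_zsmul, ← exp_add]
    simp
  have hyH : yu ∈ H := by
    change σ • (yu : L) / yu - 1 ∈ P w t
    have h1 : σ • (yu : L) - yu ∈ P w ((t + 1 : ℕ) : ℤ) :=
      h.sub_mem_of_int t ht (t + 1) le_rfl yu (by rw [mem_P_iff, hyval]; simp)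
    have h2 : σ • (yu : L) / yu - 1 = (σ • (yu : L) - yu) / yu := by
      field_simp
    rw [h2]
    have := div_mem_P h1 (by rw [hyval]; simp : w (yu : L) = exp (-(0 : ℤ)))
    exact P_mono (by push_cast; omega) this
  have hx_eq : xu = yu * ϖu ^ n := by
    simp [yu, mul_assoc]
  have hxH : xu ∈ H := by
    rw [hx_eq]; exact H.mul_mem hyH (H.zpow_mem hϖH n)
  exact hxH

/-- `σ - 1` raises the filtration by `t`. -/
lemma smul_sub_mem (h : IsRam w p σ ϖ R) (t : ℕ) (ht : σ • ϖ / ϖ - 1 ∈ P w t) {n : ℤ} {x : L}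
    (hx : x ∈ P w n) : σ • x - x ∈ P w (n + t) := by
  rcases eq_or_ne x 0 with rfl | hx0
  · simp
  · have : σ • x - x = x * (σ • x / x - 1) := by field_simp
    rw [this]
    exact mul_mem_P hx (h.ratio_sub_one_mem t ht hx0)


/-- The additive endomorphism `x ↦ σ x - x`. -/
def Dop (σ : G) : AddMonoid.End L := DistribMulAction.toAddMonoidEnd G L σ - 1

omit [Fintype G] in
lemma Dop_apply (σ : G) (x : L) : Dop σ x = σ • x - x := rfl

omit [Fintype G] [MulSemiringAction G L] in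
lemma end_sum_apply {ι : Type*} (s : Finset ι) (f : ι → AddMonoid.End L) (x : L) :
    (∑ i ∈ s, f i) x = ∑ i ∈ s, f i x := by
  classical
  induction s using Finset.induction_on with
  | empty => rfl
  | insert a s ha ih => rw [Finset.sum_insert ha, Finset.sum_insert ha, ← ih]; rfl

omit [Fintype G] in
lemma smul_pow_eq_sum (σ : G) (n : ℕ) (x : L) :
    σ ^ n • x = ∑ m ∈ range (n + 1), (n.choose m) • (Dop σ ^ m) x := by
  have h1 := add_one_pow_eq (Dop (L := L) σ) n
  have h2 : Dop (L := L) σ + 1 = DistribMulAction.toAddMonoidEnd G L σ := by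
    rw [Dop, sub_add_cancel]
  rw [h2, ← map_pow] at h1
  have h3 := DFunLike.congr_fun h1 x
  rw [end_sum_apply] at h3
  exact h3

omit [Fintype G] in
lemma sum_smul_pow_eq_sum (σ : G) (n : ℕ) (x : L) :
    ∑ j ∈ range n, σ ^ j • x = ∑ k ∈ range n, (n.choose (k + 1)) • (Dop σ ^ k) x := by
  have h1 := geom_sum_add_one (Dop (L := L) σ) n
  have h2 : Dop (L := L) σ + 1 = DistribMulAction.toAddMonoidEnd G L σ := by
    rw [Dop, sub_add_cancel]
  rw [h2] at h1
  simp_rw [← map_pow] at h1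
  have h3 := DFunLike.congr_fun h1 x
  rw [end_sum_apply, end_sum_apply] at h3
  exact h3

lemma Dop_pow_mem (h : IsRam w p σ ϖ R) (t : ℕ) (ht : σ • ϖ / ϖ - 1 ∈ P w t) (k : ℕ) :
    ∀ {n : ℤ} {x : L}, x ∈ P w n → (Dop σ ^ k) x ∈ P w (n + k * t) := by
  induction k with
  | zero => intro n x hx; simpa using hx
  | succ k ih =>
    intro n x hx
    rw [pow_succ, AddMonoid.End.coe_mul, Function.comp_apply, Dop_apply]
    have := ih (h.smul_sub_mem t ht hx)
    exact P_mono (by push_cast; ring_nf; rfl) this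

/-- `p ∈ P ((p-1) t)` in the wild case. -/
lemma p_mem (h : IsRam w p σ ϖ R) (t : ℕ) (ht1 : 1 ≤ t)
    (ht : w (σ • ϖ / ϖ - 1) = exp (-(t : ℤ))) : (p : L) ∈ P w (((p : ℤ) - 1) * t) := by
  by_contra hcon
  have hp0 : (p : L) ≠ 0 := fun h0 => hcon (by rw [h0]; exact zero_mem _)
  obtain ⟨e, he⟩ := exists_eq_exp (w := w) hp0
  have he0 : 0 ≤ e := (mem_P_of_eq_exp he).1 (natCast_mem_P p)
  have hlt : e < ((p : ℤ) - 1) * t := by
    by_contra h1
    exact hcon ((mem_P_of_eq_exp he).2 (not_lt.1 h1))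
  have ht' : σ • ϖ / ϖ - 1 ∈ P w t := by rw [mem_P_iff, ht]
  have hϖ0 := h.unif_ne_zero
  have hD1 : Dop σ ϖ = ϖ * (σ • ϖ / ϖ - 1) := by
    rw [Dop_apply]; field_simp
  have hwD1 : w (Dop σ ϖ) = exp (-(1 + (t : ℤ))) := by
    rw [hD1, map_mul, h.unif, ht, ← exp_add]; congr 1; ring
  have hsum := smul_pow_eq_sum σ p ϖ
  rw [h.pow_p, one_smul] at hsum
  have hp2 : 2 ≤ p := h.prime.two_le
  obtain ⟨q, rfl⟩ : ∃ q, p = q + 2 := ⟨p - 2, by omega⟩
  rw [Finset.sum_range_succ', Finset.sum_range_succ'] at hsum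
  simp only [Nat.choose_zero_right, pow_zero, one_smul, AddMonoid.End.coe_one, id_eq,
    zero_add, Nat.choose_one_right, pow_one] at hsum
  have hrest : ∑ k ∈ range (q + 1), ((q + 2).choose (k + 1 + 1)) • (Dop σ ^ (k + 1 + 1)) ϖ ∈
      P w (e + t + 2) := by
    refine sum_mem fun k hk => ?_
    rw [Finset.mem_range] at hk
    have hDk : (Dop σ ^ (k + 1 + 1)) ϖ ∈ P w (1 + ((k + 1 + 1 : ℕ) : ℤ) * t) :=
      Dop_pow_mem h t ht' (k + 1 + 1) (by rw [mem_P_iff, h.unif])
    rcases Nat.lt_succ_iff_lt_or_eq.1 hk with hk' | rfl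
    · obtain ⟨c, hc⟩ := h.prime.dvd_choose_self (k := k + 1 + 1) (by omega) (by omega)
      have hcc : ((q + 2) * c) • (Dop σ ^ (k + 1 + 1)) ϖ =
          ((q + 2 : ℕ) : L) * (c • (Dop σ ^ (k + 1 + 1)) ϖ) := by
        rw [nsmul_eq_mul, nsmul_eq_mul]; push_cast; ring
      rw [hc, hcc]
      have hpe : ((q + 2 : ℕ) : L) ∈ P w e := by rw [mem_P_iff, he]
      refine mul_mem_P' hpe (nsmul_mem hDk c) ?_
      push_cast
      nlinarith
    · rw [Nat.choose_self, one_smul]
      refine P_mono ?_ hDk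
      push_cast at hlt ⊢
      nlinarith
  have hpD : ((q + 2 : ℕ) : L) * Dop σ ϖ ∈ P w (e + t + 2) := by
    have : ((q + 2 : ℕ) : L) * Dop σ ϖ =
        -∑ k ∈ range (q + 1), ((q + 2).choose (k + 1 + 1)) • (Dop σ ^ (k + 1 + 1)) ϖ := by
      rw [← nsmul_eq_mul]
      linear_combination (-1 : L) * hsum
    rw [this]
    exact neg_mem hrest
  have hw : w (((q + 2 : ℕ) : L) * Dop σ ϖ) = exp (-(e + (1 + (t : ℤ)))) := by
    rw [map_mul, he, hwD1, ← exp_add]; congr 1; ring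
  have := (mem_P_of_eq_exp hw).1 hpD
  omega

/-- The trace raises the filtration by `(p-1) t`. -/
lemma tr_mem (h : IsRam w p σ ϖ R) (t : ℕ) (ht : σ • ϖ / ϖ - 1 ∈ P w t)
    (hp : (p : L) ∈ P w (((p : ℤ) - 1) * t)) {n : ℤ} {x : L} (hx : x ∈ P w n) :
    ∑ g : G, g • x ∈ P w (n + ((p : ℤ) - 1) * t) := by
  rw [h.sum_univ_eq, sum_smul_pow_eq_sum]
  refine sum_mem fun k hk => ?_
  rw [Finset.mem_range] at hk
  have hDk : (Dop σ ^ k) x ∈ P w (n + (k : ℤ) * t) := Dop_pow_mem h t ht k hx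
  by_cases hk' : k + 1 < p
  · obtain ⟨c, hc⟩ := h.prime.dvd_choose_self (k := k + 1) (by omega) hk'
    have hcc : (p * c) • (Dop σ ^ k) x = (p : L) * (c • (Dop σ ^ k) x) := by
      rw [nsmul_eq_mul, nsmul_eq_mul]; push_cast; ring
    rw [hc, hcc]
    refine mul_mem_P' hp (nsmul_mem hDk c) ?_
    have : (0 : ℤ) ≤ (k : ℤ) * t := by positivity
    linarith
  · have hkp : k + 1 = p := by omega
    rw [hkp, Nat.choose_self, one_smul]
    refine P_mono ?_ hDk
    have : (k : ℤ) = (p : ℤ) - 1 := by omega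
    rw [this]

end IsRam

end Fermat.Agent.CFT.Global.HNT.LocalIndex
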