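import Mathlib

/-!
# Completion-free local norm index, part 1: the valuation filtration

`P w n = {x | w x ≤ exp (-n)}` for a `ℤᵐ⁰`-valued valuation `w` on a field `L`.
-/

namespace Fermat.Agent.CFT.Global.HNT.LocalIndex

open WithZero

variable {L : Type*} [Field L] (w : Valuation L ℤᵐ⁰)

/-- The `n`-th step of the valuation filtration: elements of order at least `n`. -/
def P (n : ℤ) : AddSubgroup L where
  carrier := {x | w x ≤ exp (-n)}
  zero_mem' := by simp
  add_mem' := by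
    intro a b ha hb
    exact (w.map_add a b).trans (max_le ha hb)
  neg_mem' := by
    intro a ha
    simpa using ha

variable {w}

lemma mem_P_iff {n : ℤ} {x : L} : x ∈ P w n ↔ w x ≤ exp (-n) := Iff.rfl

lemma P_mono {m n : ℤ} (h : m ≤ n) {x : L} (hx : x ∈ P w n) : x ∈ P w m := by
  rw [mem_P_iff] at hx ⊢
  exact hx.trans (exp_le_exp.2 (neg_le_neg h))

lemma mul_mem_P {m n : ℤ} {x y : L} (hx : x ∈ P w m) (hy : y ∈ P w n) :
    x * y ∈ P w (m + n) := by
  rw [mem_P_iff] at hx hy ⊢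
  rw [map_mul, neg_add, exp_add]
  exact mul_le_mul' hx hy

lemma mul_mem_P' {m n k : ℤ} {x y : L} (hx : x ∈ P w m) (hy : y ∈ P w n) (h : k ≤ m + n) :
    x * y ∈ P w k := P_mono h (mul_mem_P hx hy)

lemma pow_mem_P {n : ℤ} {x : L} (hx : x ∈ P w n) (k : ℕ) : x ^ k ∈ P w (k * n) := by
  induction k with
  | zero => simp [mem_P_iff]
  | succ k ih =>
    rw [pow_succ]
    exact mul_mem_P' ih hx (by push_cast; ring_nf; rfl)

lemma one_mem_P : (1 : L) ∈ P w 0 := by simp [mem_P_iff]

lemma natCast_mem_P (k : ℕ) : (k : L) ∈ P w 0 := by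
  induction k with
  | zero => simp
  | succ k ih => push_cast; exact add_mem ih one_mem_P

lemma intCast_mem_P (k : ℤ) : (k : L) ∈ P w 0 := by
  cases k with
  | ofNat k => simpa using natCast_mem_P (w := w) k
  | negSucc k =>
    rw [Int.cast_negSucc]
    exact neg_mem (natCast_mem_P _)

lemma nsmul_mem_P {n : ℤ} {x : L} (hx : x ∈ P w n) (k : ℕ) : k • x ∈ P w n :=
  nsmul_mem hx k

/-- Discreteness: `w x < 1` iff `x ∈ P 1`. -/
lemma lt_one_iff_mem_P {x : L} : w x < 1 ↔ x ∈ P w 1 := by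
  rw [mem_P_iff]
  rcases eq_or_ne (w x) 0 with h | h
  · simp [h]
  · rw [← exp_log h, ← exp_zero, exp_lt_exp, exp_le_exp]
    omega

lemma lt_exp_iff_mem_P {x : L} {n : ℤ} : w x < exp (-n) ↔ x ∈ P w (n + 1) := by
  rw [mem_P_iff]
  rcases eq_or_ne (w x) 0 with h | h
  · simp [h]
  · rw [← exp_log h, exp_lt_exp, exp_le_exp]
    omega

lemma exists_eq_exp {x : L} (hx : x ≠ 0) : ∃ n : ℤ, w x = exp (-n) :=
  ⟨-log (w x), by rw [neg_neg, exp_log ((Valuation.ne_zero_iff w).2 hx)]⟩

lemma mem_P_of_eq_exp {x : L} {n m : ℤ} (h : w x = exp (-n)) : x ∈ P w m ↔ m ≤ n := by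
  rw [mem_P_iff, h, exp_le_exp]; omega

lemma div_mem_P {m n : ℤ} {x y : L} (hx : x ∈ P w m) (hy : w y = exp (-n)) :
    x / y ∈ P w (m - n) := by
  rw [mem_P_iff] at hx ⊢
  rw [map_div₀, hy, sub_eq_add_neg, neg_add, exp_add, div_eq_mul_inv, ← exp_neg]
  exact mul_le_mul' hx le_rfl

lemma sum_mem_P {ι : Type*} (s : Finset ι) (f : ι → L) (n : ℤ) (h : ∀ i ∈ s, f i ∈ P w n) :
    ∑ i ∈ s, f i ∈ P w n := sum_mem h

lemma prod_mem_P {ι : Type*} (s : Finset ι) (f : ι → L) (n : ℤ) (h : ∀ i ∈ s, f i ∈ P w n) :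
    ∏ i ∈ s, f i ∈ P w (s.card * n) := by
  classical
  induction s using Finset.induction_on with
  | empty => simp [mem_P_iff]
  | insert a s ha ih =>
    rw [Finset.prod_insert ha, Finset.card_insert_of_notMem ha]
    exact mul_mem_P' (h a (Finset.mem_insert_self a s))
      (ih fun i hi => h i (Finset.mem_insert_of_mem hi)) (by push_cast; ring_nf; rfl)

/-- If all factors are congruent mod `P 1` and integral, so are the products. -/
lemma prod_sub_prod_mem_P {ι : Type*} (s : Finset ι) (f g : ι → L)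
    (hf : ∀ i ∈ s, f i ∈ P w 0) (hg : ∀ i ∈ s, g i ∈ P w 0) {n : ℤ}
    (h : ∀ i ∈ s, f i - g i ∈ P w n) :
    ∏ i ∈ s, f i - ∏ i ∈ s, g i ∈ P w n := by
  classical
  induction s using Finset.induction_on with
  | empty => simp
  | insert a s ha ih =>
    rw [Finset.prod_insert ha, Finset.prod_insert ha]
    have h1 : f a * ∏ i ∈ s, f i - g a * ∏ i ∈ s, g i =
        (f a - g a) * ∏ i ∈ s, f i + g a * (∏ i ∈ s, f i - ∏ i ∈ s, g i) := by ring
    rw [h1]
    have hfs : ∏ i ∈ s, f i ∈ P w 0 := by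
      have := prod_mem_P (w := w) s f 0 (fun i hi => hf i (Finset.mem_insert_of_mem hi))
      simpa using this
    refine add_mem (mul_mem_P' (h a (Finset.mem_insert_self a s)) hfs (by omega))
      (mul_mem_P' (hg a (Finset.mem_insert_self a s))
        (ih (fun i hi => hf i (Finset.mem_insert_of_mem hi))
          (fun i hi => hg i (Finset.mem_insert_of_mem hi))
          (fun i hi => h i (Finset.mem_insert_of_mem hi))) (by omega))

end Fermat.Agent.CFT.Global.HNT.LocalIndex
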