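import Fermat.Agent.CFT.Global.HNT.LIBridge
import Fermat.Agent.CFT.Global.HasseNorm.Hyp

/-!
# The hypothesis `LocalFirstIneqRam` of the Hasse norm theorem holds in prime degree
-/

set_option autoImplicit false

open scoped NumberField WithZero
open IsDedekindDomain

namespace Fermat.Agent.CFT.Global.HNT.LocalIndex

open Fermat.Agent.CFT.Global.HasseNorm

universe u v

variable (K : Type u) (L : Type v) [Field K] [NumberField K] [Field L] [NumberField L]
  [Algebra K L]

/-- `LocalFirstIneqRam K L` for a Galois extension of prime degree. -/
theorem localFirstIneqRam [IsGalois K L] {p : ℕ} (hp : p.Prime)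
    (hdeg : Module.finrank K L = p) : LocalFirstIneqRam K L :=
  fun v hv hram => exists_not_approxNorm_of_nonsplit_ram K L hp hdeg v hv hram

end Fermat.Agent.CFT.Global.HNT.LocalIndex
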