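import Fermat.Agent.CFT.Global.HNT.LISymm

/-!
# Completion-free local norm index, part 4: norm estimates
-/

namespace Fermat.Agent.CFT.Global.HNT.LocalIndex

open WithZero Finset Polynomial

set_option linter.unusedSectionVars false

variable {L : Type*} [Field L] (G : Type*) [Group G] [Fintype G] [MulSemiringAction G L]

/-- The norm `∏_g g • x`. -/
def nm (x : L) : L := ∏ g : G, g • x

variable {G}

lemma nm_mul (x y : L) : nm G (x * y) = nm G x * nm G y := by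
  simp [nm, smul_mul', Finset.prod_mul_distrib]

lemma nm_one : nm G (1 : L) = 1 := by simp [nm]

lemma smul_nm (g : G) (x : L) : g • nm G x = nm G x := by
  rw [nm, Finset.smul_prod']
  simp_rw [smul_smul]
  exact (Group.mulLeft_bijective g).prod_comp (fun h => h • x)

lemma nm_smul (g : G) (x : L) : nm G (g • x) = nm G x := by
  rw [nm]
  simp_rw [smul_smul]
  exact (Group.mulRight_bijective g).prod_comp (fun h => h • x)

lemma nm_ne_zero {x : L} (hx : x ≠ 0) : nm G x ≠ 0 := by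
  rw [nm, Finset.prod_ne_zero_iff]
  intro g _
  rwa [Ne, smul_eq_zero_iff_eq]

lemma nm_ratio (g : G) {x : L} (hx : x ≠ 0) : nm G (g • x / x) = 1 := by
  have h1 : nm G (g • x / x) * nm G x = nm G x := by
    rw [← nm_mul, div_mul_cancel₀ _ hx, nm_smul]
  exact mul_right_cancel₀ (nm_ne_zero hx) (by rw [h1, one_mul])

variable {w : Valuation L ℤᵐ⁰} {p : ℕ} {σ : G} {ϖ : L} {R : Finset L}

namespace IsRam

lemma card_univ (h : IsRam w p σ ϖ R) : (Finset.univ : Finset G).card = p := by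
  rw [Finset.card_univ, ← Nat.card_eq_fintype_card, h.card]

lemma val_nm (h : IsRam w p σ ϖ R) (x : L) : w (nm G x) = w x ^ p := by
  rw [nm, map_prod]
  simp_rw [h.inv]
  rw [Finset.prod_const, h.card_univ]

lemma nm_mem_P (h : IsRam w p σ ϖ R) {n : ℤ} {x : L} (hx : x ∈ P w n) :
    nm G x ∈ P w (p * n) := by
  have := prod_mem_P (w := w) (Finset.univ : Finset G) (fun g => g • x) n
    (fun g _ => h.smul_mem_P g hx)
  rwa [h.card_univ] at this

lemma nm_one_add_eq (h : IsRam w p σ ϖ R) (x : L) :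
    nm G (1 + x) = ∑ k ∈ range (p + 1), (Fpoly x (Finset.univ : Finset G)).coeff k := by
  have h1 : nm G (1 + x) = (Fpoly x (Finset.univ : Finset G)).eval 1 := by
    rw [eval_one_Fpoly, nm]
    simp [smul_add]
  rw [h1, eval_eq_sum_range' (n := p + 1)
    ((natDegree_Fpoly_le x _).trans_lt (by rw [h.card_univ]; omega))]
  simp

/-- A fixed element of `P (p m + 1)` lies in `P (p (m + 1))`. -/
lemma fixed_upgrade (h : IsRam w p σ ϖ R) {a : L} (ha : ∀ g : G, g • a = a) {m : ℤ}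
    (h1 : a ∈ P w (p * m + 1)) : a ∈ P w (p * (m + 1)) := by
  rcases eq_or_ne a 0 with rfl | ha0
  · exact zero_mem _
  obtain ⟨m', hm'⟩ := h.ram a ha ha0
  have h2 := (mem_P_of_eq_exp hm').1 h1
  rw [mem_P_of_eq_exp hm']
  have hp : (0 : ℤ) < p := by exact_mod_cast h.prime.pos
  have h3 : m < m' := by
    by_contra h4
    have : (p : ℤ) * m' ≤ p * m := mul_le_mul_of_nonneg_left (not_lt.1 h4) hp.le
    omega
  exact mul_le_mul_of_nonneg_left (by omega) hp.le

/-- Wild case: `N(1+x) - 1 - N(x) ∈ P (n + (p-1) t)` for `x ∈ P n`, `n ≥ 0`. -/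
lemma nm_one_add_sub (h : IsRam w p σ ϖ R) (t : ℕ) (ht : σ • ϖ / ϖ - 1 ∈ P w t)
    (hp : (p : L) ∈ P w (((p : ℤ) - 1) * t)) (hp1 : w (p : L) < 1) {n : ℤ} (hn : 0 ≤ n) {x : L}
    (hx : x ∈ P w n) : nm G (1 + x) - 1 - nm G x ∈ P w (n + ((p : ℤ) - 1) * t) := by
  have h1 := h.nm_one_add_eq x
  obtain ⟨q, hq⟩ : ∃ q, p = q + 1 := ⟨p - 1, by have := h.prime.pos; omega⟩
  have hc0 := coeff_zero_Fpoly x (Finset.univ : Finset G)
  have hcp := coeff_card_Fpoly x (Finset.univ : Finset G)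
  rw [h.card_univ] at hcp
  have h2 : nm G (1 + x) - 1 - nm G x =
      ∑ k ∈ range q, (Fpoly x (Finset.univ : Finset G)).coeff (k + 1) := by
    rw [h1, Finset.sum_range_succ, hcp, hq, Finset.sum_range_succ', hc0, nm]; ring
  rw [h2]
  refine sum_mem fun k hk => ?_
  rw [Finset.mem_range] at hk
  have h3 := coeff_Fpoly_univ_mem h t ht hp hp1 hx (k := k + 1) (by omega) (by omega)
  refine P_mono ?_ h3
  push_cast
  nlinarith

lemma wild_of_pos (h : IsRam w p σ ϖ R) (t : ℕ) (ht1 : 1 ≤ t)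
    (ht : w (σ • ϖ / ϖ - 1) = exp (-(t : ℤ))) :
    (p : L) ∈ P w (((p : ℤ) - 1) * t) ∧ w (p : L) < 1 := by
  have hp := h.p_mem t ht1 ht
  refine ⟨hp, lt_one_iff_mem_P.2 (P_mono ?_ hp)⟩
  have : (2 : ℤ) ≤ p := by exact_mod_cast h.prime.two_le
  have ht1' : (1 : ℤ) ≤ t := by exact_mod_cast ht1
  nlinarith

/-- `N (1 + P (t+1)) ⊆ 1 + P (p (t+1))`. -/
lemma nm_one_add_sub_one_mem (h : IsRam w p σ ϖ R) (t : ℕ)
    (ht : w (σ • ϖ / ϖ - 1) = exp (-(t : ℤ))) {x : L} (hx : x ∈ P w ((t : ℤ) + 1)) :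
    nm G (1 + x) - 1 ∈ P w ((p : ℤ) * ((t : ℤ) + 1)) := by
  have hfix : ∀ g : G, g • (nm G (1 + x) - 1) = nm G (1 + x) - 1 := by
    intro g; rw [smul_sub, smul_nm, smul_one]
  refine h.fixed_upgrade hfix ?_
  have ht' : σ • ϖ / ϖ - 1 ∈ P w t := by rw [mem_P_iff, ht]
  rcases Nat.eq_zero_or_pos t with rfl | ht1
  · -- tame: crude estimate
    have h1 := prod_sub_prod_mem_P (w := w) (Finset.univ : Finset G) (fun g => g • (1 + x))
      (fun _ => (1 : L)) (n := 1) (fun g _ => h.smul_mem_P g (add_mem one_mem_P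
        (P_mono (by simp) hx))) (fun _ _ => one_mem_P) (fun g _ => by
          rw [smul_add, smul_one, add_sub_cancel_left]
          exact h.smul_mem_P g (by simpa using hx))
    simpa [nm] using h1
  · obtain ⟨hp, hp1⟩ := h.wild_of_pos t ht1 ht
    have h1 := h.nm_one_add_sub t ht' hp hp1 (by positivity) hx
    have h2 := h.nm_mem_P hx
    have h3 : nm G (1 + x) - 1 = (nm G (1 + x) - 1 - nm G x) + nm G x := by ring
    rw [h3]
    refine add_mem (P_mono ?_ h1) (P_mono ?_ h2)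
    · ring_nf; rfl
    · have : (1 : ℤ) ≤ p := by exact_mod_cast h.prime.one_le
      rw [mul_add, mul_one]; linarith

/-- `N (1 + P t) ⊆ 1 + P (p t)` (wild case). -/
lemma nm_one_add_sub_one_mem' (h : IsRam w p σ ϖ R) (t : ℕ) (ht1 : 1 ≤ t)
    (ht : w (σ • ϖ / ϖ - 1) = exp (-(t : ℤ))) {x : L} (hx : x ∈ P w (t : ℤ)) :
    nm G (1 + x) - 1 ∈ P w ((p : ℤ) * (t : ℤ)) := by
  have ht' : σ • ϖ / ϖ - 1 ∈ P w t := by rw [mem_P_iff, ht]
  obtain ⟨hp, hp1⟩ := h.wild_of_pos t ht1 ht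
  have h1 := h.nm_one_add_sub t ht' hp hp1 (by positivity) hx
  have h2 := h.nm_mem_P hx
  have h3 : nm G (1 + x) - 1 = (nm G (1 + x) - 1 - nm G x) + nm G x := by ring
  rw [h3]
  refine add_mem (P_mono ?_ h1) h2
  ring_nf; rfl

/-- Below the break the norm is injective on the graded pieces: if `w x = exp (-i)` with
`1 ≤ i < t` then `w (N(1+x) - 1) = exp (-(p i))`. -/
lemma val_nm_one_add_sub_one (h : IsRam w p σ ϖ R) (t : ℕ)
    (ht : w (σ • ϖ / ϖ - 1) = exp (-(t : ℤ))) {i : ℤ} (hi1 : 1 ≤ i) (hit : i < t) {x : L}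
    (hx : w x = exp (-i)) : w (nm G (1 + x) - 1) = exp (-((p : ℤ) * i)) := by
  have ht1 : 1 ≤ t := by omega
  have ht' : σ • ϖ / ϖ - 1 ∈ P w t := by rw [mem_P_iff, ht]
  obtain ⟨hp, hp1⟩ := h.wild_of_pos t ht1 ht
  have hxi : x ∈ P w i := by rw [mem_P_iff, hx]
  have h1 := h.nm_one_add_sub t ht' hp hp1 (by omega) hxi
  have h2 : w (nm G x) = exp (-((p : ℤ) * i)) := by
    rw [h.val_nm, hx, ← exp_nsmul]; congr 1; simp
  have h3 : nm G (1 + x) - 1 = nm G x + (nm G (1 + x) - 1 - nm G x) := by ring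
  rw [h3, Valuation.map_add_eq_of_lt_left, h2]
  rw [h2]
  have h4 : nm G (1 + x) - 1 - nm G x ∈ P w ((p : ℤ) * i + 1) := by
    refine P_mono ?_ h1
    have : (2 : ℤ) ≤ p := by exact_mod_cast h.prime.two_le
    nlinarith
  exact lt_exp_iff_mem_P.2 h4

end IsRam

end Fermat.Agent.CFT.Global.HNT.LocalIndex
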