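import Fermat.Agent.CFT.Global.HNT.LIDelta

/-!
# Completion-free local norm index, part 3: elementary symmetric functions of the conjugates

`Fpoly x s = ∏_{g ∈ s} (1 + (g • x) X)`; the coefficients of `Fpoly x univ` are the elementary
symmetric functions of the conjugates of `x`, and `k * e_k = Tr (x * e_{k-1}(other conjugates))`.
-/

namespace Fermat.Agent.CFT.Global.HNT.LocalIndex

open WithZero Finset Polynomial

set_option linter.unusedSectionVars false

variable {L : Type*} [Field L] {G : Type*} [Group G] [Fintype G] [MulSemiringAction G L]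

/-- `∏_{g ∈ s} (1 + (g • x) X)`. -/
noncomputable def Fpoly (x : L) (s : Finset G) : L[X] := ∏ g ∈ s, (1 + C (g • x) * X)

lemma eval_one_Fpoly (x : L) (s : Finset G) : (Fpoly x s).eval 1 = ∏ g ∈ s, (1 + g • x) := by
  simp [Fpoly, eval_prod]

lemma coeff_zero_Fpoly (x : L) (s : Finset G) : (Fpoly x s).coeff 0 = 1 := by
  simp [Fpoly, coeff_zero_eq_eval_zero, eval_prod]

lemma natDegree_factor_le (c : L) : (1 + C c * X : L[X]).natDegree ≤ 1 := by
  refine (natDegree_add_le _ _).trans (max_le (by simp) ?_)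
  exact (natDegree_C_mul_le _ _).trans (by simp)

lemma natDegree_Fpoly_le (x : L) (s : Finset G) : (Fpoly x s).natDegree ≤ s.card := by
  refine (natDegree_prod_le _ _).trans ?_
  calc ∑ g ∈ s, (1 + C (g • x) * X : L[X]).natDegree ≤ ∑ g ∈ s, 1 :=
        Finset.sum_le_sum fun g _ => natDegree_factor_le _
    _ = s.card := by simp

lemma coeff_card_Fpoly (x : L) (s : Finset G) : (Fpoly x s).coeff s.card = ∏ g ∈ s, g • x := by
  have := coeff_prod_of_natDegree_le (s := s) (fun g => (1 + C (g • x) * X : L[X])) 1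
    (fun g _ => natDegree_factor_le _)
  rw [mul_one] at this
  rw [Fpoly, this]
  refine Finset.prod_congr rfl fun g _ => ?_
  simp [coeff_one]

lemma Fpoly_insert [DecidableEq G] (x : L) {a : G} {s : Finset G} (ha : a ∉ s) :
    Fpoly x (insert a s) = Fpoly x s + C (a • x) * (X * Fpoly x s) := by
  simp only [Fpoly]
  rw [Finset.prod_insert ha]; ring

variable {w : Valuation L ℤᵐ⁰} {p : ℕ} {σ : G} {ϖ : L} {R : Finset L}

lemma coeff_Fpoly_mem (h : IsRam w p σ ϖ R) {n : ℤ} {x : L} (hx : x ∈ P w n) (s : Finset G) :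
    ∀ m : ℕ, (Fpoly x s).coeff m ∈ P w (m * n) := by
  classical
  induction s using Finset.induction_on with
  | empty =>
    intro m
    rcases Nat.eq_zero_or_pos m with rfl | hm
    · simp [Fpoly, mem_P_iff]
    · simp [Fpoly, coeff_one, hm.ne']
  | insert a s ha ih =>
    intro m
    rw [Fpoly_insert x ha, coeff_add, coeff_C_mul]
    refine add_mem (ih m) ?_
    cases m with
    | zero => simp
    | succ m =>
      rw [coeff_X_mul]
      exact mul_mem_P' (h.smul_mem_P a hx) (ih m) (by push_cast; ring_nf; rfl)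

/-- `derivative (∏_g (1 + (g x) X)) = ∑_h h • (x ∏_{g ≠ 1} (1 + (g x) X))`. -/
lemma derivative_Fpoly [DecidableEq G] (x : L) :
    derivative (Fpoly x (Finset.univ : Finset G)) =
      ∑ h : G, h • (C x * Fpoly x (Finset.univ.erase (1 : G))) := by
  rw [Fpoly, derivative_prod_finset]
  refine Finset.sum_congr rfl fun h _ => ?_
  have h1 : derivative (1 + C (h • x) * X : L[X]) = C (h • x) := by simp
  rw [h1, smul_mul', Polynomial.smul_C, Fpoly, Finset.smul_prod', mul_comm]
  congr 1
  refine Finset.prod_bij (fun g _ => h⁻¹ * g) ?_ ?_ ?_ ?_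
  · intro g hg
    simp only [Finset.mem_erase, Finset.mem_univ, and_true, ne_eq] at hg ⊢
    intro h2
    exact hg (by rw [← mul_right_inj h⁻¹, h2, inv_mul_cancel])
  · intro g₁ _ g₂ _ h2
    exact mul_left_cancel h2
  · intro g hg
    refine ⟨h * g, ?_, by simp⟩
    simp only [Finset.mem_erase, Finset.mem_univ, and_true, ne_eq] at hg ⊢
    intro h2
    exact hg (by rw [← mul_right_inj h, h2, mul_one])
  · intro g _
    simp [smul_add, smul_mul', Polynomial.smul_C, smul_X, smul_smul]

lemma coeff_succ_Fpoly_mul [DecidableEq G] (x : L) (n : ℕ) :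
    (Fpoly x (Finset.univ : Finset G)).coeff (n + 1) * ((n : L) + 1) =
      ∑ h : G, h • (x * (Fpoly x (Finset.univ.erase (1 : G))).coeff n) := by
  rw [← coeff_derivative, derivative_Fpoly, finsetSum_coeff]
  refine Finset.sum_congr rfl fun h _ => ?_
  rw [coeff_smul, coeff_C_mul]

/-- If `w p < 1` then `w k = 1` for `0 < k < p`. -/
lemma val_natCast_eq_one (h : IsRam w p σ ϖ R) (hp1 : w (p : L) < 1) {k : ℕ} (hk0 : 0 < k)
    (hkp : k < p) : w (k : L) = 1 := by
  have hcop : Nat.Coprime k p :=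
    Nat.coprime_comm.1 ((Nat.Prime.coprime_iff_not_dvd h.prime).2
      (Nat.not_dvd_of_pos_of_lt hk0 hkp))
  obtain ⟨u, v, huv⟩ := (Nat.isCoprime_iff_coprime.2 hcop)
  have huv' : (u : L) * k + v * p = 1 := by exact_mod_cast congrArg (Int.cast : ℤ → L) huv
  have h1 : w ((v : L) * p) < 1 := by
    rw [map_mul]
    have hv : w (v : L) ≤ 1 := by simpa [mem_P_iff] using intCast_mem_P (w := w) v
    calc w (v : L) * w (p : L) ≤ 1 * w (p : L) := mul_le_mul' hv le_rfl
      _ < 1 := by rwa [one_mul]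
  have h2 : w ((u : L) * k) = 1 := by
    have : (u : L) * k = 1 - v * p := by linear_combination huv'
    rw [this]
    exact Valuation.map_one_sub_of_lt w h1
  have hu : w (u : L) ≤ 1 := by simpa [mem_P_iff] using intCast_mem_P (w := w) u
  have hk : w (k : L) ≤ 1 := by simpa [mem_P_iff] using natCast_mem_P (w := w) k
  rw [map_mul] at h2
  refine le_antisymm hk ?_
  calc (1 : ℤᵐ⁰) = w (u : L) * w (k : L) := h2.symm
    _ ≤ 1 * w (k : L) := mul_le_mul' hu le_rfl
    _ = w (k : L) := one_mul _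

/-- The `k`-th elementary symmetric function of the conjugates of `x ∈ P n` lies in
`P (k n + (p-1) t)` for `0 < k < p` (wild case). -/
lemma coeff_Fpoly_univ_mem (h : IsRam w p σ ϖ R) (t : ℕ) (ht : σ • ϖ / ϖ - 1 ∈ P w t)
    (hp : (p : L) ∈ P w (((p : ℤ) - 1) * t)) (hp1 : w (p : L) < 1) {n : ℤ} {x : L}
    (hx : x ∈ P w n) {k : ℕ} (hk0 : 0 < k) (hkp : k < p) :
    (Fpoly x (Finset.univ : Finset G)).coeff k ∈ P w (k * n + ((p : ℤ) - 1) * t) := by
  classical
  obtain ⟨m, rfl⟩ : ∃ m, k = m + 1 := ⟨k - 1, by omega⟩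
  have h1 := coeff_succ_Fpoly_mul (G := G) x m
  have hy : x * (Fpoly x (Finset.univ.erase (1 : G))).coeff m ∈ P w (((m + 1 : ℕ) : ℤ) * n) :=
    mul_mem_P' hx (coeff_Fpoly_mem h hx _ m) (by push_cast; ring_nf; rfl)
  have h2 := h.tr_mem t ht hp hy
  rw [← h1] at h2
  have hu : w ((m : L) + 1) = exp (-(0 : ℤ)) := by
    have := val_natCast_eq_one h hp1 (k := m + 1) (by omega) hkp
    simpa using this
  have h3 := div_mem_P h2 hu
  rw [mul_div_assoc, div_self (by
    intro h0; rw [h0, map_zero] at hu; exact exp_ne_zero hu.symm), mul_one, sub_zero] at h3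
  exact h3

end Fermat.Agent.CFT.Global.HNT.LocalIndex
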